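import Fermat.Agent.EC.Weil.Divisor

/-!
# The Weil pairing through translations

For `T ∈ E[n]` choose `T'` with `n • T' = T` and `g` with divisor `∑_{R ∈ E[n]} ((T' + R) - (R))`.
Then `weil n S T` is the constant `tau S g / g`.
-/

open Polynomial WeierstrassCurve WithZero
open scoped Polynomial.Bivariate WeierstrassCurve.Affine

namespace FermatLib.EC.Weil

variable {R L : Type*} [CommRing R] [Field L] [Algebra R L] {W : Affine R} [(W⁄L).IsElliptic]
  [DecidableEq L] [IsAlgClosed L] {n : ℕ}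

open Classical in
/-- The indicator function of `E[n]`. -/
noncomputable def indTors (n : ℕ) (Q : (W⁄L).Point) : ℤ :=
  if n • Q = 0 then 1 else 0

omit [(W⁄L).IsElliptic] [IsAlgClosed L] in
lemma indTors_sub_of_tors {A B : (W⁄L).Point} (h : n • A = n • B) (Q : (W⁄L).Point) :
    indTors n (Q - A) = indTors n (Q - B) := by
  simp only [indTors, nsmul_sub, h]

omit [(W⁄L).IsElliptic] [IsAlgClosed L] in
lemma indTors_add_tors {S : (W⁄L).Point} (hS : n • S = 0) (Q : (W⁄L).Point) :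
    indTors n (Q + S) = indTors n Q := by
  simp only [indTors, nsmul_add, hS, add_zero]

omit [(W⁄L).IsElliptic] [IsAlgClosed L] in
lemma indTors_neg (Q : (W⁄L).Point) : indTors n (-Q) = indTors n Q := by
  simp only [indTors, neg_nsmul, neg_eq_zero]

/-- `g` can be used to compute the pairing with `T`. -/
def IsWeilFun (n : ℕ) (T : (W⁄L).Point) (g : FF W L) : Prop :=
  g ≠ 0 ∧ ∃ T' : (W⁄L).Point, n • T' = T ∧
    ∀ Q : (W⁄L).Point, ordAt Q g = indTors n (Q - T') - indTors n Q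

open Classical in
/-- The Weil pairing. -/
noncomputable def weil (n : ℕ) (S T : (W⁄L).Point) : L :=
  if h : ∃ c : L, ∀ g : FF W L, IsWeilFun n T g → tau S g = algebraMap L (FF W L) c * g then
    h.choose else 1

lemma IsWeilFun.ne_zero {T : (W⁄L).Point} {g : FF W L} (h : IsWeilFun n T g) : g ≠ 0 := h.1

lemma IsWeilFun.ord_eq {T : (W⁄L).Point} {g g' : FF W L} (h : IsWeilFun n T g)
    (h' : IsWeilFun n T g') : divF g = divF g' := by
  obtain ⟨-, A, hA, hg⟩ := h
  obtain ⟨-, B, hB, hg'⟩ := h'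
  refine Finsupp.ext fun Q => ?_
  rw [divF_apply, divF_apply, hg, hg', indTors_sub_of_tors (hA.trans hB.symm)]

lemma tau_spec {S T : (W⁄L).Point} (hS : n • S = 0) {g : FF W L} (hg : IsWeilFun n T g) :
    tau S g = algebraMap L (FF W L) (weil n S T) * g := by
  have hex : ∃ c : L, ∀ g : FF W L, IsWeilFun n T g → tau S g = algebraMap L (FF W L) c * g := by
    obtain ⟨T', hT', hord⟩ := hg.2
    obtain ⟨c, -, hc⟩ := exists_const_mul_eq
      ((map_ne_zero_iff _ (tau_injective S)).mpr hg.1) hg.1 (Finsupp.ext fun Q => by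
        rw [divF_apply, divF_apply, ordAt_tau, hord, hord, indTors_add_tors hS,
          add_sub_right_comm Q S T', indTors_add_tors hS])
    refine ⟨c, fun g' hg' => ?_⟩
    obtain ⟨d, -, rfl⟩ := exists_const_mul_eq hg'.1 hg.1 (hg'.ord_eq hg)
    rw [map_mul, tau_const, hc]; ring
  rw [weil, dif_pos hex]
  exact hex.choose_spec g hg

lemma weil_eq_of {S T : (W⁄L).Point} (hS : n • S = 0) {g : FF W L} (hg : IsWeilFun n T g)
    {c : L} (hc : tau S g = algebraMap L (FF W L) c * g) : weil n S T = c :=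
  const_injective (mul_right_cancel₀ hg.1 ((tau_spec hS hg).symm.trans hc))

variable {tors : Finset (W⁄L).Point}

omit [(W⁄L).IsElliptic] [IsAlgClosed L] in
lemma sum_ite_add_eq (hmem : ∀ P, P ∈ tors ↔ n • P = 0) (P Q : (W⁄L).Point) (k : ℤ) :
    ∑ X ∈ tors, Finsupp.single P k (Q + X) = k * indTors n (Q - P) := by
  classical
  simp only [Finsupp.single_apply, ← sub_eq_iff_eq_add']
  rw [Finset.sum_ite_eq tors (P - Q), ← indTors_neg, neg_sub, indTors]
  simp only [hmem]
  split_ifs <;> simp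

lemma exists_isWeilFun (hmem : ∀ P, P ∈ tors ↔ n • P = 0) (hcard : tors.card = n ^ 2)
    (hdiv : ∀ T : (W⁄L).Point, ∃ T', n • T' = T) {T : (W⁄L).Point} (hT : n • T = 0) :
    ∃ g : FF W L, IsWeilFun n T g := by
  classical
  obtain ⟨T', hT'⟩ := hdiv T
  let D : (W⁄L).Point →₀ ℤ :=
    ∑ X ∈ tors, (Finsupp.single (X + T') 1 - Finsupp.single X 1)
  have hdeg : degD D = 0 := by simp [D]
  have hsum : Finsupp.liftAddHom (fun P => zmultiplesHom _ P) D = 0 := by
    simp only [D, map_sum, map_sub, Finsupp.liftAddHom_apply_single, zmultiplesHom_apply, one_smul,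
      add_sub_cancel_left, Finset.sum_const, hcard, sq, mul_nsmul', hT', hT]
  obtain ⟨g, hg, hD⟩ := exists_divF_eq hdeg hsum
  refine ⟨g, hg, T', hT', fun Q => ?_⟩
  rw [← divF_apply, hD]
  simp only [D, Finsupp.finsetSum_apply, Finsupp.sub_apply, Finset.sum_sub_distrib,
    Finsupp.single_apply, ← eq_sub_iff_add_eq]
  rw [Finset.sum_ite_eq' tors (Q - T'), Finset.sum_ite_eq' tors Q]
  simp only [hmem, indTors]

lemma weil_add_left (hmem : ∀ P, P ∈ tors ↔ n • P = 0) (hcard : tors.card = n ^ 2)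
    (hdiv : ∀ T : (W⁄L).Point, ∃ T', n • T' = T) {S S' T : (W⁄L).Point} (hS : n • S = 0)
    (hS' : n • S' = 0) (hT : n • T = 0) :
    weil n (S + S') T = weil n S T * weil n S' T := by
  obtain ⟨g, hg⟩ := exists_isWeilFun hmem hcard hdiv hT
  refine weil_eq_of (by rw [nsmul_add, hS, hS', add_zero]) hg ?_
  rw [← tau_tau, tau_spec hS' hg, map_mul, tau_const, tau_spec hS hg, map_mul]; ring

lemma weil_zero_left (hmem : ∀ P, P ∈ tors ↔ n • P = 0) (hcard : tors.card = n ^ 2)
    (hdiv : ∀ T : (W⁄L).Point, ∃ T', n • T' = T) {T : (W⁄L).Point} (hT : n • T = 0) :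
    weil n 0 T = 1 := by
  obtain ⟨g, hg⟩ := exists_isWeilFun hmem hcard hdiv hT
  exact weil_eq_of (nsmul_zero n) hg (by rw [tau_zero_apply, map_one, one_mul])

lemma weil_nsmul_left (hmem : ∀ P, P ∈ tors ↔ n • P = 0) (hcard : tors.card = n ^ 2)
    (hdiv : ∀ T : (W⁄L).Point, ∃ T', n • T' = T) {S T : (W⁄L).Point} (hS : n • S = 0)
    (hT : n • T = 0) (k : ℕ) : weil n (k • S) T = weil n S T ^ k := by
  induction k with
  | zero => rw [zero_nsmul, pow_zero, weil_zero_left hmem hcard hdiv hT]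
  | succ k ih =>
    rw [succ_nsmul, weil_add_left hmem hcard hdiv (by rw [smul_comm, hS, nsmul_zero]) hS hT, ih,
      pow_succ]

lemma weil_pow (hmem : ∀ P, P ∈ tors ↔ n • P = 0) (hcard : tors.card = n ^ 2)
    (hdiv : ∀ T : (W⁄L).Point, ∃ T', n • T' = T) {S T : (W⁄L).Point} (hS : n • S = 0)
    (hT : n • T = 0) : weil n S T ^ n = 1 := by
  rw [← weil_nsmul_left hmem hcard hdiv hS hT, hS, weil_zero_left hmem hcard hdiv hT]

lemma weil_add_right (hmem : ∀ P, P ∈ tors ↔ n • P = 0) (hcard : tors.card = n ^ 2)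
    (hdiv : ∀ T : (W⁄L).Point, ∃ T', n • T' = T) {S T₁ T₂ : (W⁄L).Point} (hS : n • S = 0)
    (hT₁ : n • T₁ = 0) (hT₂ : n • T₂ = 0) :
    weil n S (T₁ + T₂) = weil n S T₁ * weil n S T₂ := by
  classical
  obtain ⟨g₁, hg₁⟩ := exists_isWeilFun hmem hcard hdiv hT₁
  obtain ⟨g₂, hg₂⟩ := exists_isWeilFun hmem hcard hdiv hT₂
  obtain ⟨A, hA, hordA⟩ := hg₁.2
  obtain ⟨B, hB, hordB⟩ := hg₂.2
  obtain ⟨u, hu, hdu⟩ := exists_divF_eq (W := W) (L := L) (D := Finsupp.single (A + B) 1 +
    Finsupp.single A (-1) + Finsupp.single B (-1) + Finsupp.single 0 1) (by simp) (by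
      simp only [map_add, Finsupp.liftAddHom_apply_single, zmultiplesHom_apply, neg_smul, one_smul]
      abel)
  have hne : ∀ X ∈ tors, tau X u ≠ 0 := fun X _ => (map_ne_zero_iff _ (tau_injective X)).mpr hu
  set h := ∏ X ∈ tors, tau X u with hdef
  have h0 : h ≠ 0 := Finset.prod_ne_zero_iff.mpr hne
  have hh : tau S h = h := by
    rw [hdef, map_prod]
    simp only [tau_tau]
    exact Finset.prod_bijective (fun X => S + X) (AddGroup.addLeft_bijective S)
      (fun X => by rw [hmem, hmem, nsmul_add, hS, zero_add]) fun X _ => rfl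
  have hg : IsWeilFun n (T₁ + T₂) (g₁ * g₂ * h) := by
    refine ⟨mul_ne_zero (mul_ne_zero hg₁.1 hg₂.1) h0, A + B, by rw [nsmul_add, hA, hB],
      fun Q => ?_⟩
    rw [ordAt_mul Q (mul_ne_zero hg₁.1 hg₂.1) h0, ordAt_mul Q hg₁.1 hg₂.1, hordA, hordB,
      ← divF_apply, hdef, divF_prod tors _ hne, Finsupp.finsetSum_apply]
    simp only [divF_apply, ordAt_tau]
    simp only [← divF_apply, hdu, Finsupp.add_apply, Finset.sum_add_distrib,
      sum_ite_add_eq hmem, sub_zero]
    ring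
  refine weil_eq_of hS hg ?_
  rw [map_mul, map_mul, hh, tau_spec hS hg₁, tau_spec hS hg₂, map_mul]; ring

lemma weil_self (hmem : ∀ P, P ∈ tors ↔ n • P = 0) (hcard : tors.card = n ^ 2)
    (hdiv : ∀ T : (W⁄L).Point, ∃ T', n • T' = T) {T : (W⁄L).Point} (hT : n • T = 0) :
    weil n T T = 1 := by
  classical
  obtain ⟨g, hg⟩ := exists_isWeilFun hmem hcard hdiv hT
  obtain ⟨A, hA, hord⟩ := hg.2
  have hne : ∀ i ∈ Finset.range n, tau (i • A) g ≠ 0 := fun i _ =>
    (map_ne_zero_iff _ (tau_injective _)).mpr hg.1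
  set H := ∏ i ∈ Finset.range n, tau (i • A) g with hH
  obtain ⟨c, hc⟩ := exists_eq_const_of_ord_nonneg (f := H) fun Q => by
    refine le_of_eq ?_
    rw [← divF_apply, hH, divF_prod _ _ hne, Finsupp.finsetSum_apply]
    simp only [divF_apply, ordAt_tau, hord]
    have e : ∀ i : ℕ, indTors n (Q + i • A - A) - indTors n (Q + i • A) =
        indTors n (Q + i • A - A) - indTors n (Q + (i + 1) • A - A) := fun i => by
      rw [succ_nsmul, ← add_assoc Q, add_sub_cancel_right]
    simp only [e]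
    rw [Finset.sum_range_sub', zero_nsmul, add_zero, hA, add_sub_right_comm Q T A,
      indTors_add_tors hT, sub_self]
  have hHA : tau A H = H := by rw [hc, tau_const]
  have hrec : tau A H = ∏ i ∈ Finset.range n, tau ((i + 1) • A) g := by
    rw [hH, map_prod]
    exact Finset.prod_congr rfl fun i _ => by rw [tau_tau, succ_nsmul']
  refine weil_eq_of hT hg ?_
  rw [map_one, one_mul]
  have h1 := Finset.prod_range_succ (fun i => tau (i • A) g) n
  rw [Finset.prod_range_succ', ← hrec, hHA, ← hH, zero_nsmul, tau_zero_apply, hA] at h1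
  exact (mul_left_cancel₀ (Finset.prod_ne_zero_iff.mpr hne) h1).symm

lemma weil_map (hmem : ∀ P, P ∈ tors ↔ n • P = 0) (hcard : tors.card = n ^ 2)
    (hdiv : ∀ T : (W⁄L).Point, ∃ T', n • T' = T) (σ : L ≃ₐ[R] L) {S T : (W⁄L).Point}
    (hS : n • S = 0) (hT : n • T = 0) :
    weil n (Affine.Point.map σ.toAlgHom S) (Affine.Point.map σ.toAlgHom T) = σ (weil n S T) := by
  obtain ⟨g, hg⟩ := exists_isWeilFun hmem hcard hdiv hT
  obtain ⟨A, hA, hord⟩ := hg.2
  have hind : ∀ Q : (W⁄L).Point,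
      indTors n (Affine.Point.map σ.toAlgHom Q) = indTors n Q := fun Q => by
    simp only [indTors, ← map_nsmul, map_eq_zero_iff _ (Affine.Point.map_injective σ.toAlgHom)]
  have hsurj : ∀ Q : (W⁄L).Point, ∃ Q', Affine.Point.map σ.toAlgHom Q' = Q := fun Q =>
    ⟨Affine.Point.map σ.symm.toAlgHom Q, by
      rw [Affine.Point.map_map]
      rcases Q with _ | ⟨a, b, h⟩
      · rfl
      · simp [Affine.Point.map_some]⟩
  have hg' : IsWeilFun n (Affine.Point.map σ.toAlgHom T) (coeffHom σ.toAlgHom g) := by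
    refine ⟨(map_ne_zero_iff _ (coeffHom σ.toAlgHom).toRingHom.injective).mpr hg.1,
      Affine.Point.map σ.toAlgHom A, by rw [← map_nsmul, hA], fun Q => ?_⟩
    obtain ⟨Q, rfl⟩ := hsurj Q
    rw [← map_sub, hind, hind, ← hord Q, ordAt, ordAt, ptVal_coeffHom]
  refine weil_eq_of (by rw [← map_nsmul, hS, map_zero]) hg' ?_
  rw [← coeffHom_tau, tau_spec hS hg, map_mul, coeffHom_const]
  rfl

/-- The fibre of an `E[n]`-invariant function of the shape `IsWeilFun` is one orbit. -/
lemma fibre_eq (hmem : ∀ P, P ∈ tors ↔ n • P = 0) {T : (W⁄L).Point}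
    {g : FF W L} (hg : IsWeilFun n T g) (hT0 : T ≠ 0) (hinv : ∀ S, n • S = 0 → tau S g = g)
    {c : L} {Q₀ : (W⁄L).Point} (hQ₀ : ptVal Q₀ (g - algebraMap L (FF W L) c) < 1) :
    g - algebraMap L (FF W L) c ≠ 0 ∧ n • Q₀ ≠ 0 ∧
      ∀ Q, ordAt Q (g - algebraMap L (FF W L) c) = indTors n (Q - Q₀) - indTors n Q := by
  classical
  obtain ⟨hg0, A, hA, hord⟩ := hg
  have hpole : ∀ Q : (W⁄L).Point, n • Q = 0 →
      ptVal Q (g - algebraMap L (FF W L) c) = exp 1 := fun Q hQ => by
    have hAQ : ¬ n • (Q - A) = 0 := by rwa [nsmul_sub, hQ, hA, zero_sub, neg_eq_zero]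
    have hgQ : ptVal Q g = exp 1 := by
      rw [ptVal_eq_exp Q hg0, hord, indTors, indTors, if_neg hAQ, if_pos hQ]; rfl
    rw [Valuation.map_sub_eq_of_lt_left, hgQ]
    exact (ptVal_const_le Q c).trans_lt (by rw [hgQ, ← exp_zero, exp_lt_exp]; norm_num)
  have hne : g - algebraMap L (FF W L) c ≠ 0 := fun e => by
    have := hpole 0 (nsmul_zero n)
    rw [e, map_zero] at this
    exact exp_ne_zero this.symm
  have hQ₀n : n • Q₀ ≠ 0 := fun e => by
    rw [hpole Q₀ e, ← exp_zero, exp_lt_exp] at hQ₀; omega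
  refine ⟨hne, hQ₀n, fun Q => ?_⟩
  let D : (W⁄L).Point →₀ ℤ :=
    ∑ X ∈ tors, (Finsupp.single (X + Q₀) 1 - Finsupp.single X 1)
  have hD : ∀ Q, D Q = indTors n (Q - Q₀) - indTors n Q := fun Q => by
    simp only [D, Finsupp.finsetSum_apply, Finsupp.sub_apply, Finset.sum_sub_distrib,
      Finsupp.single_apply, ← eq_sub_iff_add_eq]
    rw [Finset.sum_ite_eq' tors (Q - Q₀), Finset.sum_ite_eq' tors Q]
    simp only [hmem, indTors]
  suffices h : divF (g - algebraMap L (FF W L) c) - D = 0 by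
    have := DFunLike.congr_fun h Q
    rw [Finsupp.sub_apply, divF_apply, hD, Finsupp.coe_zero, Pi.zero_apply, sub_eq_zero] at this
    exact this
  refine eq_zero_of_degD_eq_zero (fun P => ?_) (by rw [map_sub, degD_divF]; simp [D])
  rw [Finsupp.sub_apply, divF_apply, hD, sub_nonneg]
  by_cases hP : n • P = 0
  · have h2 : ordAt P (g - algebraMap L (FF W L) c) = -1 := by rw [ordAt, hpole P hP, log_exp]
    have h3 : ¬ n • (P - Q₀) = 0 := by rwa [nsmul_sub, hP, zero_sub, neg_eq_zero]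
    rw [h2, indTors, indTors, if_neg h3, if_pos hP]; rfl
  · have hnn : ptVal P (g - algebraMap L (FF W L) c) ≤ 1 := by
      refine Valuation.map_sub_le _ ?_ (ptVal_const_le P c)
      rw [← ordAt_nonneg_iff P hg0, hord, indTors, indTors, if_neg hP]
      split_ifs <;> norm_num
    rw [show indTors n P = 0 from if_neg hP, sub_zero, indTors]
    split_ifs with h
    · refine Int.add_one_le_iff.mpr ((ordAt_pos_iff P hne).mpr ?_)
      have e : P = Q₀ + (P - Q₀) := (add_sub_cancel Q₀ P).symm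
      rw [e, ← ptVal_tau, map_sub, tau_const, hinv _ h]
      exact hQ₀
    · exact (ordAt_nonneg_iff P hne).mpr hnn

/-- Nondegeneracy of the Weil pairing. -/
theorem weil_nondegenerate (hmem : ∀ P, P ∈ tors ↔ n • P = 0) (hcard : tors.card = n ^ 2)
    (hdiv : ∀ T : (W⁄L).Point, ∃ T', n • T' = T) {T : (W⁄L).Point} (hT : n • T = 0)
    (h : ∀ S, n • S = 0 → weil n S T = 1) : T = 0 := by
  classical
  by_contra hT0
  obtain ⟨g, hg⟩ := exists_isWeilFun hmem hcard hdiv hT
  obtain ⟨A, hA, hord⟩ := hg.2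
  have hinv : ∀ S, n • S = 0 → tau S g = g := fun S hS => by
    rw [tau_spec hS hg, h S hS, map_one, one_mul]
  have hA0 : ¬ n • A = 0 := hA.symm ▸ hT0
  have hAA : ¬ n • (-A) = 0 := by rwa [neg_nsmul, neg_eq_zero]
  obtain ⟨a, ha⟩ := exists_const_vInf_lt (z := tau (-A) g) (by
    rw [← ptVal_apply, ← ordAt_nonneg_iff _ hg.1, hord, indTors, indTors, if_neg hAA]
    split_ifs <;> norm_num)
  have ha' : ptVal (-A) (g - algebraMap L (FF W L) a) < 1 := by
    rwa [ptVal_apply, map_sub, tau_const]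
  obtain ⟨hga, -, horda⟩ := fibre_eq hmem hg hT0 hinv ha'
  set u := tau A g with hu
  have hu0 : u ≠ 0 := (map_ne_zero_iff _ (tau_injective A)).mpr hg.1
  obtain ⟨k, hk⟩ := exists_eq_const_of_ord_nonneg (f := u * (g - algebraMap L (FF W L) a))
    fun Q => le_of_eq (by
      rw [ordAt_mul Q hu0 hga, hu, ordAt_tau, hord, horda, add_sub_cancel_right, sub_neg_eq_add]
      ring)
  have hk0 : k ≠ 0 := fun e => mul_ne_zero hu0 hga (by rw [hk, e, map_zero])
  obtain ⟨c, hc⟩ := IsAlgClosed.exists_root (X ^ 2 - C a * X - C k : L[X]) (by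
    have : (X ^ 2 - C a * X - C k : L[X]).degree = 2 := by compute_degree!
    rw [this]; norm_num)
  have hck : c * (c - a) = k := by
    rw [IsRoot.def, eval_sub, eval_sub, eval_pow, eval_mul, eval_X, eval_C, eval_C] at hc
    linear_combination hc
  have hca : c - a ≠ 0 := fun e => hk0 (by rw [← hck, e, mul_zero])
  have hneg : ordAt 0 (g - algebraMap L (FF W L) c) < 0 := by
    have hgQ : ptVal (0 : (W⁄L).Point) g = exp 1 := by
      rw [ptVal_eq_exp 0 hg.1, hord, indTors, indTors, if_pos (nsmul_zero n),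
        if_neg (by rwa [zero_sub])]
      rfl
    rw [ordAt, Valuation.map_sub_eq_of_lt_left, hgQ, log_exp]
    · norm_num
    · exact (ptVal_const_le 0 c).trans_lt (by rw [hgQ, ← exp_zero, exp_lt_exp]; norm_num)
  obtain ⟨Q₀, hQ₀⟩ : ∃ Q₀ : (W⁄L).Point, ptVal Q₀ (g - algebraMap L (FF W L) c) < 1 := by
    have hne : g - algebraMap L (FF W L) c ≠ 0 := fun e => by simp [e] at hneg
    by_contra hcon
    have h0 := eq_zero_of_degD_eq_zero (D := -divF (g - algebraMap L (FF W L) c)) (fun P => by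
      rw [Finsupp.neg_apply, divF_apply, Left.nonneg_neg_iff]
      by_contra hP
      exact hcon ⟨P, (ordAt_pos_iff P hne).mp (not_le.mp hP)⟩)
      (by rw [map_neg, degD_divF, neg_zero])
    have := DFunLike.congr_fun h0 0
    simp at this
    omega
  obtain ⟨hgc, -, hordc⟩ := fibre_eq hmem hg hT0 hinv hQ₀
  set κ := algebraMap L (FF W L)
  have h1 : ptVal Q₀ (g - κ a) = 1 := by
    rw [show g - κ a = κ (c - a) + (g - κ c) by rw [map_sub]; ring,
      Valuation.map_add_eq_of_lt_left, ptVal_const _ hca]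
    rw [ptVal_const _ hca]; exact hQ₀
  have h2 : (u - κ c) * (g - κ a) = -(κ c) * (g - κ c) := by
    have : κ c * (κ c - κ a) = κ k := by rw [← map_sub, ← map_mul, hck]
    linear_combination hk - this
  have h3 : ptVal (Q₀ + A) (g - κ c) < 1 := by
    rw [← ptVal_tau, map_sub, tau_const, ← hu]
    have := congrArg (ptVal Q₀) h2
    rw [map_mul, h1, mul_one, map_mul, Valuation.map_neg] at this
    rw [this]
    exact lt_of_le_of_lt (mul_le_of_le_one_left' (ptVal_const_le Q₀ c)) hQ₀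
  have h4 := (ordAt_pos_iff _ hgc).mpr h3
  rw [hordc, add_sub_cancel_left, indTors, indTors, if_neg hA0] at h4
  split_ifs at h4 <;> omega

end FermatLib.EC.Weil
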