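import Fermat.Agent.EC.Weil.Local

/-!
# Divisors of functions on an elliptic curve over an algebraically closed field
-/

open Polynomial WeierstrassCurve WithZero
open scoped Polynomial.Bivariate WeierstrassCurve.Affine

namespace FermatLib.EC.Weil

variable {R L : Type*} [CommRing R] [Field L] [Algebra R L] {W : Affine R} [(W⁄L).IsElliptic]
  [DecidableEq L] [IsAlgClosed L]

/-- The order of `f` at `P`. -/
noncomputable def ordAt (P : (W⁄L).Point) (f : FF W L) : ℤ := -log (ptVal P f)

lemma ordAt_mul (P : (W⁄L).Point) {f g : FF W L} (hf : f ≠ 0) (hg : g ≠ 0) :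
    ordAt P (f * g) = ordAt P f + ordAt P g := by
  rw [ordAt, ordAt, ordAt, map_mul, log_mul ((Valuation.ne_zero_iff _).mpr hf)
    ((Valuation.ne_zero_iff _).mpr hg)]
  ring

lemma ordAt_inv (P : (W⁄L).Point) (f : FF W L) : ordAt P f⁻¹ = -ordAt P f := by
  rw [ordAt, ordAt, map_inv₀, log_inv]

@[simp]
lemma ordAt_zero (P : (W⁄L).Point) : ordAt P (0 : FF W L) = 0 := by simp [ordAt]

lemma ptVal_eq_exp (P : (W⁄L).Point) {f : FF W L} (hf : f ≠ 0) :
    ptVal P f = exp (-ordAt P f) := by
  rw [ordAt, neg_neg, exp_log ((Valuation.ne_zero_iff _).mpr hf)]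

lemma ordAt_nonneg_iff (P : (W⁄L).Point) {f : FF W L} (hf : f ≠ 0) :
    0 ≤ ordAt P f ↔ ptVal P f ≤ 1 := by
  rw [ptVal_eq_exp P hf, ← exp_zero, exp_le_exp]; omega

lemma ordAt_pos_iff (P : (W⁄L).Point) {f : FF W L} (hf : f ≠ 0) :
    0 < ordAt P f ↔ ptVal P f < 1 := by
  rw [ptVal_eq_exp P hf, ← exp_zero, exp_lt_exp]; omega

lemma ordAt_eq_zero_of_ptVal_eq_one (P : (W⁄L).Point) {f : FF W L} (h : ptVal P f = 1) :
    ordAt P f = 0 := by rw [ordAt, h, log_one, neg_zero]

@[simp]
lemma ordAt_const (P : (W⁄L).Point) (c : L) : ordAt P (algebraMap L (FF W L) c) = 0 := by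
  rcases eq_or_ne c 0 with rfl | hc
  · simp
  · exact ordAt_eq_zero_of_ptVal_eq_one P (ptVal_const P hc)

lemma ordAt_tau (P S : (W⁄L).Point) (f : FF W L) : ordAt P (tau S f) = ordAt (P + S) f := by
  rw [ordAt, ordAt, ptVal_tau]

omit [DecidableEq L] in
lemma exists_point_x (r : L) :
    ∃ (y : L) (h : (W⁄L).Nonsingular r y), ∀ (z : L) (h' : (W⁄L).Nonsingular r z),
      (Affine.Point.some r z h' : (W⁄L).Point) = .some r y h ∨
        (Affine.Point.some r z h' : (W⁄L).Point) = -.some r y h := by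
  obtain ⟨y, hy⟩ := IsAlgClosed.exists_root ((W⁄L).polynomial.map (evalRingHom r)) (by
    rw [degree_eq_natDegree (Polynomial.Monic.map _ Affine.monic_polynomial).ne_zero,
      Affine.monic_polynomial.natDegree_map, Affine.natDegree_polynomial]; simp)
  have heq : (W⁄L).Equation r y := by rw [Affine.Equation, ← map_evalRingHom_eval]; exact hy
  exact ⟨y, (W⁄L).equation_iff_nonsingular.mp heq, fun z h' => Affine.Point.X_eq_iff.mp rfl⟩

lemma finite_x_mem (s : Finset L) :
    {P : (W⁄L).Point | ∀ a b h, P = Affine.Point.some a b h → a ∈ s}.Finite := by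
  classical
  refine Set.Finite.subset (Finset.finite_toSet (insert (0 : (W⁄L).Point) (s.biUnion fun r =>
    {Affine.Point.some r _ (exists_point_x r).choose_spec.choose,
      -Affine.Point.some r _ (exists_point_x r).choose_spec.choose}))) ?_
  intro P hP
  rw [Finset.mem_coe, Finset.mem_insert]
  rcases P with _ | ⟨a, b, h⟩
  · exact Or.inl rfl
  right
  rw [Finset.mem_biUnion]
  refine ⟨a, hP a b h rfl, ?_⟩
  rw [Finset.mem_insert, Finset.mem_singleton]
  exact (exists_point_x a).choose_spec.choose_spec b h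

lemma finite_ord_ne_zero (f : FF W L) : {P : (W⁄L).Point | ordAt P f ≠ 0}.Finite := by
  classical
  obtain ⟨a, b, hb, rfl⟩ := IsFractionRing.div_surjective (A := (W⁄L).CoordinateRing) f
  have key : ∀ z : (W⁄L).CoordinateRing,
      {P : (W⁄L).Point | ordAt P (algebraMap _ (FF W L) z) ≠ 0}.Finite := fun z => by
    rcases eq_or_ne z 0 with rfl | hz
    · simp
    refine (finite_x_mem (Algebra.norm L[X] z).roots.toFinset).subset ?_
    rintro P hP a b h rfl
    rw [Multiset.mem_toFinset, mem_roots (norm_ne_zero' hz), IsRoot.def]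
    by_contra hne
    apply hP
    have h1 := ptVal_algebraMap_le h z
    have h2 := ptVal_algebraMap_le h (conjCR z)
    have hprod : ptVal (.some a b h) (algebraMap _ (FF W L) z) *
        ptVal (.some a b h) (algebraMap _ (FF W L) (conjCR z)) = 1 := by
      rw [← map_mul, ← map_mul, (conj_norm z).2.2]
      exact (congrArg _ (algebraMap_mk_C _)).trans (ptVal_eval₂_of_eval_ne h hne)
    refine ordAt_eq_zero_of_ptVal_eq_one _ (le_antisymm h1 ?_)
    calc (1 : ℤᵐ⁰) = _ := hprod.symm
      _ ≤ ptVal (.some a b h) (algebraMap _ (FF W L) z) * 1 := by gcongr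
      _ = _ := mul_one _
  refine ((key a).union (key b)).subset fun P hP => ?_
  rcases eq_or_ne a 0 with rfl | ha
  · simp at hP
  by_contra hcon
  simp only [Set.mem_union, Set.mem_ofPred_eq, not_or, not_not] at hcon
  apply hP
  rw [div_eq_mul_inv, ordAt_mul P, ordAt_inv, hcon.1, hcon.2, neg_zero, add_zero]
  · exact (map_ne_zero_iff _ (IsFractionRing.injective _ _)).mpr ha
  · exact inv_ne_zero ((map_ne_zero_iff _ (IsFractionRing.injective _ _)).mpr
      (nonZeroDivisors.ne_zero hb))

/-- The divisor of a function. -/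
noncomputable def divF (f : FF W L) : (W⁄L).Point →₀ ℤ :=
  Finsupp.ofSupportFinite (fun P => ordAt P f) (finite_ord_ne_zero f)

@[simp]
lemma divF_apply (f : FF W L) (P : (W⁄L).Point) : divF f P = ordAt P f := rfl

lemma divF_mul {f g : FF W L} (hf : f ≠ 0) (hg : g ≠ 0) :
    divF (f * g) = divF f + divF g :=
  Finsupp.ext fun P => by simp [ordAt_mul P hf hg]

lemma divF_inv (f : FF W L) : divF f⁻¹ = -divF f :=
  Finsupp.ext fun P => by simp [ordAt_inv]

lemma divF_div {f g : FF W L} (hf : f ≠ 0) (hg : g ≠ 0) :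
    divF (f / g) = divF f - divF g := by
  rw [div_eq_mul_inv, divF_mul hf (inv_ne_zero hg), divF_inv, sub_eq_add_neg]

@[simp]
lemma divF_const (c : L) : divF (algebraMap L (FF W L) c) = 0 :=
  Finsupp.ext fun P => by simp

lemma divF_one : divF (1 : FF W L) = 0 := by
  rw [← map_one (algebraMap L (FF W L))]; exact divF_const 1

lemma divF_prod {ι : Type*} (s : Finset ι) (f : ι → FF W L) (h : ∀ i ∈ s, f i ≠ 0) :
    divF (∏ i ∈ s, f i) = ∑ i ∈ s, divF (f i) := by
  classical
  induction s using Finset.induction_on with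
  | empty => simp [divF_one]
  | insert i s hi ih =>
    rw [Finset.prod_insert hi, Finset.sum_insert hi, divF_mul (h i (Finset.mem_insert_self i s))
      (Finset.prod_ne_zero_iff.mpr fun j hj => h j (Finset.mem_insert_of_mem hj)),
      ih fun j hj => h j (Finset.mem_insert_of_mem hj)]

/-- The sum of the coefficients. -/
noncomputable def degD : ((W⁄L).Point →₀ ℤ) →+ ℤ :=
  Finsupp.liftAddHom fun _ => AddMonoidHom.id ℤ

omit [(W⁄L).IsElliptic] [DecidableEq L] [IsAlgClosed L] in
@[simp]
lemma degD_single (P : (W⁄L).Point) (n : ℤ) : degD (Finsupp.single P n) = n := by simp [degD]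

omit [(W⁄L).IsElliptic] [DecidableEq L] [IsAlgClosed L] in
lemma degD_mapDomain (e : (W⁄L).Point → (W⁄L).Point) (D : (W⁄L).Point →₀ ℤ) :
    degD (D.mapDomain e) = degD D := by
  induction D using Finsupp.induction_linear with
  | zero => simp
  | add D E hD hE => rw [Finsupp.mapDomain_add, map_add, map_add, hD, hE]
  | single P n => simp

omit [(W⁄L).IsElliptic] [IsAlgClosed L] in
lemma eq_zero_of_degD_eq_zero {D : (W⁄L).Point →₀ ℤ} (h0 : ∀ P, 0 ≤ D P) (hd : degD D = 0) :
    D = 0 := by
  have : ∑ P ∈ D.support, D P = 0 := by simpa [degD, Finsupp.sum] using hd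
  refine Finsupp.ext fun P => ?_
  by_cases hP : P ∈ D.support
  · exact (Finset.sum_eq_zero_iff_of_nonneg fun Q _ => h0 Q).mp this P hP
  · simpa using hP

lemma divF_xGen_sub {r y : L} (h : (W⁄L).Nonsingular r y) :
    divF (xGen W L - algebraMap L (FF W L) r) =
      Finsupp.single (.some r y h) 1 + Finsupp.single (-.some r y h) 1 - Finsupp.single 0 2 := by
  classical
  refine Finsupp.ext fun P => ?_
  simp only [divF_apply, Finsupp.coe_sub, Finsupp.coe_add, Pi.sub_apply, Pi.add_apply,
    Finsupp.single_apply]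
  rcases P with _ | ⟨a, b, hab⟩
  · change ordAt 0 _ = _
    rw [ordAt, ptVal_zero_apply, vInf_xGen_sub, log_exp]
    simp [← Affine.Point.zero_def, Affine.Point.some_ne_zero]
  · have h0 : (0 : (W⁄L).Point) ≠ .some a b hab := (Affine.Point.some_ne_zero hab).symm
    rw [if_neg h0]
    by_cases hr : a = r
    · subst hr
      rw [ordAt, (ptVal_coords hab).1, log_exp]
      set Q : (W⁄L).Point := .some a b hab with hQ
      have hiff : -Q = Q ↔ b = (W⁄L).negY a b := by
        rw [hQ, Affine.Point.neg_some, Affine.Point.some.injEq]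
        exact ⟨fun e => e.2.symm, fun e => ⟨rfl, e.symm⟩⟩
      rcases (Affine.Point.X_eq_iff (h₁ := hab) (h₂ := h)).mp rfl with e | e <;>
        rw [← hQ] at e
      · rw [← e, if_pos rfl]
        by_cases hb : b = (W⁄L).negY a b
        · rw [if_pos hb, if_pos (hiff.mpr hb)]; norm_num
        · rw [if_neg hb, if_neg (fun e => hb (hiff.mp e))]; norm_num
      · have e' : (Affine.Point.some a y h : (W⁄L).Point) = -Q := by rw [e, neg_neg]
        rw [e', neg_neg, if_pos rfl]
        by_cases hb : b = (W⁄L).negY a b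
        · rw [if_pos hb, if_pos (hiff.mpr hb)]; norm_num
        · rw [if_neg hb, if_neg (fun e => hb (hiff.mp e))]; norm_num
    · rw [ordAt, ptVal_xGen_sub_of_ne hab hr, log_one]
      have h1 : (Affine.Point.some r y h : (W⁄L).Point) ≠ .some a b hab := fun e =>
        hr (Affine.Point.some.inj e).1.symm
      have h2 : -(Affine.Point.some r y h : (W⁄L).Point) ≠ .some a b hab := fun e => by
        rw [Affine.Point.neg_some] at e; exact hr (Affine.Point.some.inj e).1.symm
      rw [if_neg h1, if_neg h2]; norm_num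

lemma degD_divF_eval₂ {p : L[X]} (hp : p ≠ 0) :
    degD (divF (p.eval₂ (algebraMap L (FF W L)) (xGen W L))) = 0 := by
  classical
  have hev : ∀ m : Multiset L,
      eval₂ (algebraMap L (FF W L)) (xGen W L) (m.map fun r => X - C r).prod =
        (m.map fun r => xGen W L - algebraMap L (FF W L) r).prod := fun m => by
    rw [eval₂_multiset_prod, Multiset.map_map]; simp
  rw [(IsAlgClosed.splits p).eq_prod_roots, eval₂_mul, eval₂_C, hev]
  induction p.roots using Multiset.induction_on with
  | empty => simp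
  | cons r m ih =>
    obtain ⟨y, h, -⟩ := exists_point_x (W := W) r
    have h1 : (m.map fun r => xGen W L - algebraMap L (FF W L) r).prod ≠ 0 :=
      Multiset.prod_ne_zero (by simp [xGen_sub_ne])
    rw [Multiset.map_cons, Multiset.prod_cons, mul_left_comm, divF_mul (xGen_sub_ne r)
      (mul_ne_zero ((map_ne_zero_iff _ (RingHom.injective _)).mpr
        (leadingCoeff_ne_zero.mpr hp)) h1), map_add, ih, divF_xGen_sub h]
    simp

lemma degD_divF_algebraMap (z : (W⁄L).CoordinateRing) :
    degD (divF (algebraMap _ (FF W L) z)) = 0 := by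
  rcases eq_or_ne z 0 with rfl | hz
  · rw [map_zero, ← map_zero (algebraMap L (FF W L)), divF_const, map_zero]
  obtain ⟨h1, h2, h3⟩ := conj_norm z
  have hc : conjCR z ≠ 0 := fun e => norm_ne_zero' hz (by rw [← h2, e, norm_zero_CR])
  have hne : ∀ w : (W⁄L).CoordinateRing, w ≠ 0 → algebraMap _ (FF W L) w ≠ 0 := fun w hw =>
    (map_ne_zero_iff _ (IsFractionRing.injective _ _)).mpr hw
  have e1 : divF (algebraMap _ (FF W L) (conjCR z)) =
      (divF (algebraMap _ (FF W L) z)).mapDomain Neg.neg := Finsupp.ext fun P => by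
    rw [← neg_neg P, Finsupp.mapDomain_apply neg_injective, neg_neg, ← h1]
    simp [ordAt, ptVal_negHom]
  have e2 := degD_divF_eval₂ (W := W) (norm_ne_zero' hz)
  rw [← algebraMap_mk_C] at e2
  rw [show Affine.CoordinateRing.mk (W⁄L) (C (Algebra.norm L[X] z)) = z * conjCR z from h3.symm,
    map_mul, divF_mul (hne z hz) (hne _ hc), map_add, e1, degD_mapDomain] at e2
  omega

/-- Principal divisors have degree zero. -/
theorem degD_divF (f : FF W L) : degD (divF f) = 0 := by
  obtain ⟨a, b, hb, rfl⟩ := IsFractionRing.div_surjective (A := (W⁄L).CoordinateRing) f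
  rcases eq_or_ne a 0 with rfl | ha
  · rw [map_zero, zero_div, ← map_zero (algebraMap L (FF W L)), divF_const, map_zero]
  rw [divF_div ((map_ne_zero_iff _ (IsFractionRing.injective _ _)).mpr ha)
    ((map_ne_zero_iff _ (IsFractionRing.injective _ _)).mpr (nonZeroDivisors.ne_zero hb)),
    map_sub, degD_divF_algebraMap, degD_divF_algebraMap, sub_zero]

/-- A function without poles is constant. -/
theorem exists_eq_const_of_ord_nonneg {f : FF W L} (h : ∀ P : (W⁄L).Point, 0 ≤ ordAt P f) :
    ∃ c : L, f = algebraMap L (FF W L) c := by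
  rcases eq_or_ne f 0 with rfl | hf
  · exact ⟨0, (map_zero _).symm⟩
  have h0 := (ordAt_nonneg_iff 0 hf).mp (h 0)
  rw [ptVal_zero_apply] at h0
  obtain ⟨c, hc⟩ := exists_const_vInf_lt h0
  refine ⟨c, ?_⟩
  by_contra hne
  replace hne := sub_ne_zero.mpr hne
  have hge : ∀ P, 0 ≤ divF (f - algebraMap L (FF W L) c) P := fun P => by
    rw [divF_apply, ordAt_nonneg_iff P hne]
    exact Valuation.map_sub_le _ ((ordAt_nonneg_iff P hf).mp (h P)) (ptVal_const_le P c)
  have := eq_zero_of_degD_eq_zero hge (degD_divF _)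
  have hpos := (ordAt_pos_iff 0 hne).mpr (by rwa [ptVal_zero_apply])
  rw [← divF_apply, this] at hpos
  simp at hpos

/-- Functions with equal divisors differ by a constant. -/
theorem exists_const_mul_eq {f g : FF W L} (hf : f ≠ 0) (hg : g ≠ 0) (h : divF f = divF g) :
    ∃ c : L, c ≠ 0 ∧ f = algebraMap L (FF W L) c * g := by
  obtain ⟨c, hc⟩ := exists_eq_const_of_ord_nonneg (f := f / g) fun P => by
    rw [← divF_apply, divF_div hf hg, h, sub_self]; simp
  rw [div_eq_iff hg] at hc
  refine ⟨c, ?_, hc⟩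
  rintro rfl
  rw [map_zero, zero_mul] at hc
  exact hf hc

lemma ptVal_le_of_mem_XYIdeal {a b : L} (hab : (W⁄L).Nonsingular a b) {z : (W⁄L).CoordinateRing}
    (hz : z ∈ Affine.CoordinateRing.XYIdeal (W⁄L) a (C b)) :
    ptVal (.some a b hab) (algebraMap _ (FF W L) z) ≤ exp (-1) := by
  rw [Affine.CoordinateRing.XYIdeal, Ideal.mem_span_pair] at hz
  obtain ⟨s, t, rfl⟩ := hz
  rw [map_add, map_mul, map_mul]
  refine Valuation.map_add_le _ ?_ ?_ <;> rw [map_mul] <;>
    refine (mul_le_of_le_one_left' (ptVal_algebraMap_le hab _)).trans ?_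
  · rw [Affine.CoordinateRing.XClass, algebraMap_mk_C, eval₂_sub, eval₂_X, eval₂_C,
      (ptVal_coords hab).1, exp_le_exp]
    split_ifs <;> norm_num
  · refine le_exp_neg_one_of_lt_one ?_
    rw [Affine.CoordinateRing.YClass, map_sub, map_sub, algebraMap_mk_C, eval₂_C]
    exact (ptVal_coords hab).2

lemma divF_line {x₁ y₁ x₂ y₂ : L} (h₁ : (W⁄L).Nonsingular x₁ y₁) (h₂ : (W⁄L).Nonsingular x₂ y₂)
    (hxy : ¬(x₁ = x₂ ∧ y₁ = (W⁄L).negY x₂ y₂)) :
    ∃ f : FF W L, f ≠ 0 ∧ divF f = Finsupp.single (.some x₁ y₁ h₁) 1 +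
      Finsupp.single (.some x₂ y₂ h₂) 1 -
      Finsupp.single (.some x₁ y₁ h₁ + .some x₂ y₂ h₂ : (W⁄L).Point) 1 -
      Finsupp.single 0 1 := by
  classical
  rw [Affine.Point.add_some hxy]
  set ℓ := (W⁄L).slope x₁ x₂ y₁ y₂
  set x₃ := (W⁄L).addX x₁ x₂ ℓ
  set y₃ := (W⁄L).addY x₁ x₂ y₁ ℓ
  set h₃ := Affine.nonsingular_add h₁ h₂ hxy
  set h₃' : (W⁄L).Nonsingular x₃ ((W⁄L).negY x₃ y₃) := (Affine.nonsingular_neg ..).mpr h₃
  set lin := Affine.linePolynomial x₁ y₁ ℓ with hlin
  set line := Affine.CoordinateRing.YClass (W⁄L) lin with hline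
  open Affine.CoordinateRing in
  have hspan : YIdeal (W⁄L) lin = XYIdeal (W⁄L) x₁ (C y₁) * XYIdeal (W⁄L) x₂ (C y₂) *
      XYIdeal (W⁄L) x₃ (C ((W⁄L).negY x₃ y₃)) := by
    have h := congrArg (· * XYIdeal (W⁄L) x₃ (C ((W⁄L).negY x₃ y₃)))
      (XYIdeal_mul_XYIdeal h₁.1 h₂.1 hxy)
    simp only [mul_assoc] at h
    rw [mul_comm (XYIdeal (W⁄L) x₃ (C y₃)), XYIdeal_neg_mul h₃,
      mul_comm (YIdeal (W⁄L) lin)] at h
    rw [mul_assoc]
    exact ((Ideal.span_singleton_mul_right_inj (XClass_ne_zero x₃)).mp h).symm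
  have hmem : line ∈ Affine.CoordinateRing.YIdeal (W⁄L) lin := Ideal.mem_span_singleton_self _
  rw [hspan] at hmem
  have hofpq : line = ofPQ (-lin) 1 := by
    simp [hline, Affine.CoordinateRing.YClass, ofPQ, Affine.CoordinateRing.smul]; ring
  have hne : algebraMap _ (FF W L) line ≠ 0 :=
    (map_ne_zero_iff _ (IsFractionRing.injective _ _)).mpr
      (Affine.CoordinateRing.YClass_ne_zero _)
  have hinf : ordAt (0 : (W⁄L).Point) (algebraMap _ (FF W L) line) = -3 := by
    rw [ordAt, ptVal_zero_apply, vInf_algebraMap, wtVal_of_ne_zero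
      (Affine.CoordinateRing.YClass_ne_zero _), log_exp]
    have : wt line = 3 := by
      rw [hofpq, wt]
      refine natDegree_eq_of_degree_eq_some ?_
      rw [degree_norm_ofPQ, degree_one, degree_neg]
      have hd : lin.degree ≤ 1 := by
        rw [hlin, Affine.linePolynomial]; compute_degree
      refine max_eq_right ?_
      calc (2 : ℕ) • lin.degree ≤ (2 : ℕ) • (1 : WithBot ℕ) := nsmul_le_nsmul_right hd 2
        _ ≤ _ := by decide
    rw [this]; rfl
  let G : ((W⁄L).Point →₀ ℤ) := Finsupp.single (.some x₁ y₁ h₁) 1 +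
    Finsupp.single (.some x₂ y₂ h₂) 1 + Finsupp.single (.some _ _ h₃') 1 - Finsupp.single 0 3
  have key : divF (algebraMap _ (FF W L) line) = G := by
    rw [← sub_eq_zero]
    refine eq_zero_of_degD_eq_zero (fun P => ?_) (by rw [map_sub, degD_divF]; simp [G])
    simp only [Finsupp.coe_sub, Pi.sub_apply, divF_apply, G, Finsupp.coe_add, Pi.add_apply,
      Finsupp.single_apply]
    rcases P with _ | ⟨a, b, hab⟩
    · change 0 ≤ ordAt 0 _ - _
      rw [hinf]
      simp [← Affine.Point.zero_def, Affine.Point.some_ne_zero]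
    · have h0 : (0 : (W⁄L).Point) ≠ .some a b hab := (Affine.Point.some_ne_zero hab).symm
      rw [if_neg h0]
      set Q : (W⁄L).Point := .some a b hab with hQ
      have bound : ∀ {u v : L} (huv : (W⁄L).Nonsingular u v) (z : (W⁄L).CoordinateRing),
          z ∈ Affine.CoordinateRing.XYIdeal (W⁄L) u (C v) →
          ptVal Q (algebraMap _ (FF W L) z) ≤
            exp (-(if (Affine.Point.some u v huv : (W⁄L).Point) = Q then 1 else 0) : ℤ) := by
        intro u v huv z hz
        split_ifs with e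
        · obtain ⟨rfl, rfl⟩ := Affine.Point.some.inj e
          exact ptVal_le_of_mem_XYIdeal hab hz
        · simpa using ptVal_algebraMap_le hab z
      have step : ∀ (I J : Ideal (W⁄L).CoordinateRing) (m n : ℤ),
          (∀ z ∈ I, ptVal Q (algebraMap _ (FF W L) z) ≤ exp m) →
          (∀ z ∈ J, ptVal Q (algebraMap _ (FF W L) z) ≤ exp n) →
          ∀ z ∈ I * J, ptVal Q (algebraMap _ (FF W L) z) ≤ exp (m + n) := by
        intro I J m n hI hJ z hz
        induction hz using Submodule.mul_induction_on' with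
        | mem_mul_mem i hi j hj =>
          rw [map_mul, map_mul, exp_add]; exact mul_le_mul' (hI i hi) (hJ j hj)
        | add x _ y _ hx hy => rw [map_add]; exact Valuation.map_add_le _ hx hy
      have := step _ _ _ _ (step _ _ _ _ (bound h₁) (bound h₂)) (bound h₃') line hmem
      rw [ptVal_eq_exp Q hne, exp_le_exp] at this
      omega
  refine ⟨algebraMap _ (FF W L) line / (xGen W L - algebraMap L (FF W L) x₃),
    div_ne_zero hne (xGen_sub_ne x₃), ?_⟩
  rw [divF_div hne (xGen_sub_ne x₃), key, divF_xGen_sub h₃, Affine.Point.neg_some]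
  simp only [G]
  rw [show (2 : ℤ) = 1 + 1 from rfl, show (3 : ℤ) = 1 + 1 + 1 from rfl]
  simp only [Finsupp.single_add]
  abel

variable (W L) in
/-- The subgroup of principal divisors. -/
noncomputable def princD : AddSubgroup ((W⁄L).Point →₀ ℤ) where
  carrier := {D | ∃ f : FF W L, f ≠ 0 ∧ divF f = D}
  zero_mem' := ⟨1, one_ne_zero, divF_one⟩
  add_mem' := by
    rintro _ _ ⟨f, hf, rfl⟩ ⟨g, hg, rfl⟩
    exact ⟨f * g, mul_ne_zero hf hg, divF_mul hf hg⟩
  neg_mem' := by
    rintro _ ⟨f, hf, rfl⟩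
    exact ⟨f⁻¹, inv_ne_zero hf, divF_inv f⟩

lemma pair_mem_princD (P Q : (W⁄L).Point) :
    Finsupp.single P 1 + Finsupp.single Q 1 - Finsupp.single (P + Q) 1 - Finsupp.single 0 1 ∈
      princD L W := by
  classical
  rcases P with _ | ⟨x₁, y₁, h₁⟩
  · rw [← Affine.Point.zero_def, zero_add]
    convert! (princD L W).zero_mem using 1
    abel
  rcases Q with _ | ⟨x₂, y₂, h₂⟩
  · rw [← Affine.Point.zero_def, add_zero]
    convert! (princD L W).zero_mem using 1
    abel
  by_cases hxy : x₁ = x₂ ∧ y₁ = (W⁄L).negY x₂ y₂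
  · rw [Affine.Point.add_of_Y_eq hxy.1 hxy.2]
    obtain ⟨rfl, rfl⟩ := hxy
    refine ⟨xGen W L - algebraMap L (FF W L) x₁, xGen_sub_ne x₁, ?_⟩
    rw [divF_xGen_sub h₂, Affine.Point.neg_some, show (2 : ℤ) = 1 + 1 from rfl, Finsupp.single_add]
    abel
  · exact divF_line h₁ h₂ hxy

/-- A divisor of degree zero which sums to zero is principal. -/
theorem exists_divF_eq {D : (W⁄L).Point →₀ ℤ} (hdeg : degD D = 0)
    (hsum : Finsupp.liftAddHom (fun P => zmultiplesHom _ P) D = 0) :
    ∃ f : FF W L, f ≠ 0 ∧ divF f = D := by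
  classical
  set sumE : ((W⁄L).Point →₀ ℤ) →+ (W⁄L).Point := Finsupp.liftAddHom (fun P => zmultiplesHom _ P)
  suffices h : ∀ D, D - Finsupp.single 0 (degD D) -
      (Finsupp.single (sumE D) 1 - Finsupp.single 0 1) ∈ princD L W by
    have := h D
    rwa [hdeg, hsum, Finsupp.single_zero, sub_zero, sub_self, sub_zero] at this
  intro D
  induction D using Finsupp.induction_linear with
  | zero => simp
  | add D E hD hE =>
    convert! (princD L W).add_mem ((princD L W).add_mem hD hE)
      (pair_mem_princD (sumE D) (sumE E)) using 1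
    rw [map_add, map_add, Finsupp.single_add]
    abel
  | single P n =>
    simp only [sumE, Finsupp.liftAddHom_apply_single, degD_single, zmultiplesHom_apply]
    induction n using Int.induction_on with
    | zero => simp
    | succ n ih =>
      convert! (princD L W).add_mem ih (pair_mem_princD ((n : ℤ) • P) P) using 1
      rw [add_smul, one_smul, Finsupp.single_add, Finsupp.single_add]
      abel
    | pred n ih =>
      convert! (princD L W).sub_mem ih (pair_mem_princD ((-(n : ℤ) - 1) • P) P) using 1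
      rw [show (-(n : ℤ) - 1) • P + P = (-(n : ℤ)) • P by
        rw [sub_smul, one_smul, sub_add_cancel], Finsupp.single_sub, Finsupp.single_sub]
      abel

end FermatLib.EC.Weil
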