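import Fermat.Agent.EC.Weil.Translate

/-!
# Valuations of the function field of an elliptic curve at its points

`ptVal P` is the valuation of `L(W)` at `P`, defined by translating the valuation at infinity.
-/

open Polynomial WeierstrassCurve WithZero
open scoped Polynomial.Bivariate WeierstrassCurve.Affine

namespace FermatLib.EC.Weil

lemma le_exp_neg_one_of_lt_one {v : ℤᵐ⁰} (h : v < 1) : v ≤ exp (-1 : ℤ) := by
  rcases eq_or_ne v 0 with rfl | h0
  · exact zero_le
  rw [← exp_log h0, ← exp_zero (M := ℤ), exp_lt_exp] at h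
  rw [← exp_log h0, exp_le_exp]; omega

variable {R L : Type*} [CommRing R] [Field L] [Algebra R L] {W : Affine R} [(W⁄L).IsElliptic]
  [DecidableEq L] [IsAlgClosed L]

/-- The valuation of `L(W)` at a point `P`. -/
noncomputable def ptVal (P : (W⁄L).Point) : Valuation (FF W L) ℤᵐ⁰ :=
  (vInf (W⁄L)).comap (tau P).toRingHom

lemma ptVal_apply (P : (W⁄L).Point) (f : FF W L) : ptVal P f = vInf (W⁄L) (tau P f) := rfl

lemma ptVal_zero_apply (f : FF W L) : ptVal (0 : (W⁄L).Point) f = vInf (W⁄L) f := by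
  rw [ptVal_apply, tau_zero_apply]

lemma ptVal_tau (P S : (W⁄L).Point) (f : FF W L) : ptVal P (tau S f) = ptVal (P + S) f := by
  rw [ptVal_apply, ptVal_apply, tau_tau]

lemma ptVal_const (P : (W⁄L).Point) {c : L} (hc : c ≠ 0) :
    ptVal P (algebraMap L (FF W L) c) = 1 := by
  rw [ptVal_apply, tau_const, vInf_const hc]

lemma ptVal_const_le (P : (W⁄L).Point) (c : L) : ptVal P (algebraMap L (FF W L) c) ≤ 1 := by
  rcases eq_or_ne c 0 with rfl | hc
  · simp
  · exact (ptVal_const P hc).le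

omit [(W⁄L).IsElliptic] [DecidableEq L] [IsAlgClosed L] in
lemma algebraMap_ofPQ (p q : L[X]) :
    algebraMap (W⁄L).CoordinateRing (FF W L) (ofPQ p q) =
      p.eval₂ (algebraMap L (FF W L)) (xGen W L) +
        q.eval₂ (algebraMap L (FF W L)) (xGen W L) * yGen W L := by
  simp only [ofPQ, Affine.CoordinateRing.smul, map_add, map_mul, mul_one, algebraMap_mk_C]
  rfl

omit [(W⁄L).IsElliptic] [DecidableEq L] [IsAlgClosed L] in
lemma vInf_xGen : vInf (W⁄L) (xGen W L) = exp 2 := by
  have h : algebraMap (W⁄L).CoordinateRing (FF W L) (ofPQ X 0) = xGen W L := by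
    rw [algebraMap_ofPQ, eval₂_X, eval₂_zero, zero_mul, add_zero]
  rw [← h, vInf_algebraMap, wtVal_of_ne_zero (fun e => X_ne_zero (ofPQ_eq_zero.mp e).1), wt,
    natDegree_eq_of_degree_eq_some (n := 2) (by rw [degree_norm_ofPQ]; simp)]
  rfl

omit [(W⁄L).IsElliptic] [DecidableEq L] [IsAlgClosed L] in
lemma vInf_yGen : vInf (W⁄L) (yGen W L) = exp 3 := by
  have h : algebraMap (W⁄L).CoordinateRing (FF W L) (ofPQ 0 1) = yGen W L := by
    rw [algebraMap_ofPQ, eval₂_zero, eval₂_one, zero_add, one_mul]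
  rw [← h, vInf_algebraMap, wtVal_of_ne_zero (fun e => one_ne_zero (ofPQ_eq_zero.mp e).2), wt,
    natDegree_eq_of_degree_eq_some (n := 3) (by rw [degree_norm_ofPQ]; simp)]
  rfl

omit [(W⁄L).IsElliptic] [DecidableEq L] [IsAlgClosed L] in
lemma vInf_const_le (c : L) : vInf (W⁄L) (algebraMap L (FF W L) c) ≤ 1 := by
  rcases eq_or_ne c 0 with rfl | hc
  · simp
  · exact (vInf_const hc).le

omit [(W⁄L).IsElliptic] [DecidableEq L] [IsAlgClosed L] in
lemma vInf_xGen_sub (a : L) :
    vInf (W⁄L) (xGen W L - algebraMap L (FF W L) a) = exp 2 := by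
  rw [Valuation.map_sub_eq_of_lt_left, vInf_xGen]
  exact (vInf_const_le a).trans_lt (by rw [vInf_xGen, ← exp_zero, exp_lt_exp]; norm_num)

omit [(W⁄L).IsElliptic] [DecidableEq L] [IsAlgClosed L] in
lemma vInf_yGen_sub (b : L) :
    vInf (W⁄L) (yGen W L - algebraMap L (FF W L) b) = exp 3 := by
  rw [Valuation.map_sub_eq_of_lt_left, vInf_yGen]
  exact (vInf_const_le b).trans_lt (by rw [vInf_yGen, ← exp_zero, exp_lt_exp]; norm_num)

omit [(W⁄L).IsElliptic] [DecidableEq L] [IsAlgClosed L] in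
lemma xGen_sub_ne (a : L) : xGen W L - algebraMap L (FF W L) a ≠ 0 := fun h => by
  have := vInf_xGen_sub (W := W) a
  rw [h, map_zero] at this
  exact exp_ne_zero this.symm

/-- Translates of the coordinate functions near an affine point. -/
lemma ptVal_coords {a b : L} (h : (W⁄L).Nonsingular a b) :
    ptVal (.some a b h) (xGen W L - algebraMap L (FF W L) a) =
        exp (if b = (W⁄L).negY a b then -2 else -1 : ℤ) ∧
      ptVal (.some a b h) (yGen W L - algebraMap L (FF W L) b) < 1 := by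
  let κ := algebraMap L (FF W L)
  have hX : xGen W L ≠ κ a := sub_ne_zero.mp (xGen_sub_ne a)
  have hmap := map_tau_gen (Affine.Point.some a b h)
  simp only [genPt, cst, Affine.Point.baseChange, Affine.Point.map_some] at hmap
  rw [Affine.Point.add_of_X_ne (show xGen W L ≠ Algebra.ofId L (FF W L) a from hX),
    Affine.Point.some.injEq] at hmap
  obtain ⟨hx', hy'⟩ := hmap
  simp only [Algebra.ofId_apply] at hx' hy'
  rw [Affine.slope_of_X_ne hX] at hx' hy'
  set u := xGen W L - κ a with hu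
  set w := yGen W L - κ b with hw
  have hu0 : u ≠ 0 := sub_ne_zero.mpr hX
  set c := b - (W⁄L).negY a b with hc
  set d := 3 * a ^ 2 + 2 * (W⁄L).a₂ * a + (W⁄L).a₄ - (W⁄L).a₁ * b with hd
  set k := 3 * a + (W⁄L).a₂ with hk
  have ha₁ : (W⁄(FF W L)).a₁ = κ (W⁄L).a₁ := by rw [← map_const_curve]; rfl
  have ha₂ : (W⁄(FF W L)).a₂ = κ (W⁄L).a₂ := by rw [← map_const_curve]; rfl
  have ha₃ : (W⁄(FF W L)).a₃ = κ (W⁄L).a₃ := by rw [← map_const_curve]; rfl
  have ha₄ : (W⁄(FF W L)).a₄ = κ (W⁄L).a₄ := by rw [← map_const_curve]; rfl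
  have ha₆ : (W⁄(FF W L)).a₆ = κ (W⁄L).a₆ := by rw [← map_const_curve]; rfl
  have hcd : κ c = 2 * κ b + κ (W⁄L).a₁ * κ a + κ (W⁄L).a₃ := by
    simp only [hc, Affine.negY, map_sub, map_neg, map_mul]; ring
  have hdd : κ d = 3 * κ a ^ 2 + 2 * κ (W⁄L).a₂ * κ a + κ (W⁄L).a₄ - κ (W⁄L).a₁ * κ b := by
    simp only [hd, map_sub, map_add, map_mul, map_pow, map_ofNat]
  have hkd : κ k = 3 * κ a + κ (W⁄L).a₂ := by
    simp only [hk, map_add, map_mul, map_ofNat]
  have heqG := ((W⁄(FF W L)).equation_iff _ _).mp (equation_gen (W := W) (L := L))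
  have heqP := congrArg κ (((W⁄L).equation_iff _ _).mp h.1)
  simp only [map_add, map_mul, map_pow] at heqP
  rw [ha₁, ha₂, ha₃, ha₄, ha₆] at heqG
  have shift : w ^ 2 + κ (W⁄L).a₁ * u * w + κ c * w = u ^ 3 + κ k * u ^ 2 + κ d * u := by
    rw [hcd, hdd, hkd, hu, hw]; linear_combination heqG - heqP
  have hxid : (tau (Affine.Point.some a b h) (xGen W L) - κ a) * u ^ 2 =
      κ d * u - κ c * w := by
    rw [hx', Affine.addX, ha₁, ha₂]
    rw [hkd] at shift
    field_simp
    linear_combination shift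
  have hyid : (tau (Affine.Point.some a b h) (yGen W L) - κ b) * u ^ 3 =
      (κ c * κ k - κ (W⁄L).a₁ * κ d) * u ^ 2 + κ c * κ d * u - κ c ^ 2 * w - κ d * (u * w) := by
    have e : tau (Affine.Point.some a b h) (yGen W L) - κ b =
        -((w / u + κ (W⁄L).a₁) * (tau (Affine.Point.some a b h) (xGen W L) - κ a)) - κ c := by
      rw [hy', Affine.addY, Affine.negY, Affine.negAddY, ← hx', ha₁, ha₃, hcd]
      field_simp
      ring
    rw [e]
    rw [show (-((w / u + κ (W⁄L).a₁) * (tau (Affine.Point.some a b h) (xGen W L) - κ a)) - κ c) *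
        u ^ 3 = -((w + κ (W⁄L).a₁ * u) * ((tau (Affine.Point.some a b h) (xGen W L) - κ a) *
          u ^ 2)) - κ c * u ^ 3 by field_simp, hxid]
    linear_combination κ c * shift
  have vu : vInf (W⁄L) u = exp 2 := vInf_xGen_sub a
  have vw : vInf (W⁄L) w = exp 3 := vInf_yGen_sub b
  have vκ : ∀ z : L, vInf (W⁄L) (κ z) ≤ 1 := vInf_const_le
  have small : ∀ (z : L) (t : FF W L), vInf (W⁄L) (κ z * t) ≤ vInf (W⁄L) t := fun z t => by
    rw [map_mul]; exact mul_le_of_le_one_left' (vκ z)
  constructor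
  · have hnum : vInf (W⁄L) (κ d * u - κ c * w) =
        exp (if b = (W⁄L).negY a b then 2 else 3 : ℤ) := by
      split_ifs with hb
      · have hc0 : c = 0 := by rw [hc, ← hb, sub_self]
        have hd0 : d ≠ 0 := by
          rcases ((W⁄L).nonsingular_iff a b).mp h |>.2 with h' | h'
          · intro e; rw [hd] at e; exact h' (by linear_combination -e)
          · exact absurd hb h'
        rw [hc0, map_zero, zero_mul, sub_zero, map_mul, vu, vInf_const hd0, one_mul]
      · rw [Valuation.map_sub_eq_of_lt_right, map_mul, vw,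
          vInf_const (sub_ne_zero.mpr hb), one_mul]
        rw [map_mul (vInf (W⁄L)) (κ c), vw, vInf_const (sub_ne_zero.mpr hb), one_mul]
        exact (small d u).trans_lt (by rw [vu, exp_lt_exp]; norm_num)
    have := congrArg (vInf (W⁄L)) hxid
    rw [map_mul, map_pow, vu, hnum] at this
    rw [ptVal_apply, map_sub, tau_const]
    refine mul_right_cancel₀ (pow_ne_zero 2 (exp_ne_zero (a := (2 : ℤ)))) (this.trans ?_)
    rw [← exp_nsmul, ← exp_add]
    congr 1
    split_ifs <;> norm_num
  · have := congrArg (vInf (W⁄L)) hyid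
    rw [map_mul, map_pow, vu] at this
    rw [ptVal_apply, map_sub, tau_const]
    have hle : vInf (W⁄L) ((κ c * κ k - κ (W⁄L).a₁ * κ d) * u ^ 2 + κ c * κ d * u - κ c ^ 2 * w -
        κ d * (u * w)) ≤ exp 5 := by
      refine (vInf _).map_sub_le ((vInf _).map_sub_le ((vInf _).map_add_le ?_ ?_) ?_) ?_
      · rw [← map_mul κ, ← map_mul κ, ← map_sub κ]
        refine (small _ _).trans ?_
        rw [map_pow, vu, ← exp_nsmul, exp_le_exp]; norm_num
      · rw [← map_mul κ]
        refine (small _ _).trans ?_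
        rw [vu, exp_le_exp]; norm_num
      · rw [← map_pow κ]
        refine (small _ _).trans ?_
        rw [vw, exp_le_exp]; norm_num
      · refine (small _ _).trans ?_
        rw [map_mul, vu, vw, ← exp_add]; norm_num
    rw [← this] at hle
    refine lt_of_not_ge fun h1 => ?_
    have h6 := (le_mul_of_one_le_left' (a := (exp (2 : ℤ)) ^ 3) h1).trans hle
    rw [← exp_nsmul, exp_le_exp] at h6
    norm_num at h6

lemma ptVal_xGen_sub_of_ne {a a' b : L} (h : (W⁄L).Nonsingular a b) (ha : a ≠ a') :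
    ptVal (.some a b h) (xGen W L - algebraMap L (FF W L) a') = 1 := by
  have e : xGen W L - algebraMap L (FF W L) a' = algebraMap L (FF W L) (a - a') +
      (xGen W L - algebraMap L (FF W L) a) := by rw [map_sub]; ring
  rw [e, Valuation.map_add_eq_of_lt_left, ptVal_const _ (sub_ne_zero.mpr ha)]
  rw [ptVal_const _ (sub_ne_zero.mpr ha), (ptVal_coords h).1, ← exp_zero, exp_lt_exp]
  split_ifs <;> norm_num

lemma ptVal_xGen_le {a b : L} (h : (W⁄L).Nonsingular a b) :
    ptVal (.some a b h) (xGen W L) ≤ 1 := by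
  rw [show xGen W L = algebraMap L (FF W L) a + (xGen W L - algebraMap L (FF W L) a) by ring]
  refine Valuation.map_add_le _ (ptVal_const_le _ a) ?_
  rw [(ptVal_coords h).1, ← exp_zero, exp_le_exp]; split_ifs <;> norm_num

lemma ptVal_eval₂_le {a b : L} (h : (W⁄L).Nonsingular a b) (p : L[X]) :
    ptVal (.some a b h) (p.eval₂ (algebraMap L (FF W L)) (xGen W L)) ≤ 1 := by
  induction p using Polynomial.induction_on' with
  | add p q hp hq => rw [eval₂_add]; exact Valuation.map_add_le _ hp hq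
  | monomial n c =>
    rw [eval₂_monomial, map_mul, map_pow]
    exact mul_le_one' (ptVal_const_le _ c) (pow_le_one' (ptVal_xGen_le h) n)

/-- Elements of the coordinate ring are regular at affine points. -/
lemma ptVal_algebraMap_le {a b : L} (h : (W⁄L).Nonsingular a b) (z : (W⁄L).CoordinateRing) :
    ptVal (.some a b h) (algebraMap _ (FF W L) z) ≤ 1 := by
  obtain ⟨p, q, rfl⟩ := exists_ofPQ z
  rw [algebraMap_ofPQ]
  refine Valuation.map_add_le _ (ptVal_eval₂_le h p) ?_
  rw [map_mul]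
  refine mul_le_one' (ptVal_eval₂_le h q) ?_
  rw [show yGen W L = algebraMap L (FF W L) b + (yGen W L - algebraMap L (FF W L) b) by ring]
  exact Valuation.map_add_le _ (ptVal_const_le _ b) (ptVal_coords h).2.le

lemma ptVal_eval₂_of_eval_ne {a b : L} (h : (W⁄L).Nonsingular a b) {p : L[X]}
    (hp : p.eval a ≠ 0) :
    ptVal (.some a b h) (p.eval₂ (algebraMap L (FF W L)) (xGen W L)) = 1 := by
  obtain ⟨r, hr⟩ := X_sub_C_dvd_sub_C_eval (p := p) (a := a)
  have e : p.eval₂ (algebraMap L (FF W L)) (xGen W L) = algebraMap L (FF W L) (p.eval a) +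
      (xGen W L - algebraMap L (FF W L) a) * r.eval₂ (algebraMap L (FF W L)) (xGen W L) := by
    have := congrArg (eval₂ (algebraMap L (FF W L)) (xGen W L)) hr
    simp only [eval₂_sub, eval₂_C, eval₂_mul, eval₂_X] at this
    linear_combination this
  rw [e, Valuation.map_add_eq_of_lt_left, ptVal_const _ hp]
  rw [ptVal_const _ hp, map_mul]
  refine lt_of_le_of_lt (mul_le_of_le_one_right' (ptVal_eval₂_le h r)) ?_
  rw [(ptVal_coords h).1, ← exp_zero, exp_lt_exp]; split_ifs <;> norm_num

omit [(W⁄L).IsElliptic] [DecidableEq L] [IsAlgClosed L] in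
lemma norm_zero_CR : Algebra.norm L[X] (0 : (W⁄L).CoordinateRing) = 0 := by
  rw [← (ofPQ_eq_zero (W := (W⁄L)) (p := 0) (q := 0)).mpr ⟨rfl, rfl⟩, ofPQ,
    Affine.CoordinateRing.norm_smul_basis]
  ring

/-- The conjugate of an element of the coordinate ring. -/
noncomputable def conjCR (z : (W⁄L).CoordinateRing) : (W⁄L).CoordinateRing :=
  ofPQ ((exists_ofPQ z).choose - (exists_ofPQ z).choose_spec.choose *
    (C (W⁄L).a₁ * X + C (W⁄L).a₃)) (-(exists_ofPQ z).choose_spec.choose)

lemma conj_norm (z : (W⁄L).CoordinateRing) :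
    negHom W L (algebraMap _ (FF W L) z) = algebraMap _ (FF W L) (conjCR z) ∧
      Algebra.norm L[X] (conjCR z) = Algebra.norm L[X] z ∧
      z * conjCR z = algebraMap L[X] _ (Algebra.norm L[X] z) := by
  set p := (exists_ofPQ z).choose with hp
  set q := (exists_ofPQ z).choose_spec.choose with hq
  have hz : z = ofPQ p q := ((exists_ofPQ z).choose_spec.choose_spec).symm
  have hc : conjCR z = ofPQ (p - q * (C (W⁄L).a₁ * X + C (W⁄L).a₃)) (-q) := rfl
  rw [hc, hz]
  refine ⟨?_, ?_, ?_⟩
  · have hmap : Affine.Point.map (negHom W L) (genPt W L) = -genPt W L := map_fnHom_genPt _ _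
    rw [genPt, Affine.Point.map_some, Affine.Point.neg_some, Affine.Point.some.injEq] at hmap
    have hev : ∀ r : L[X], negHom W L (r.eval₂ (algebraMap L (FF W L)) (xGen W L)) =
        r.eval₂ (algebraMap L (FF W L)) (xGen W L) := fun r => by
      induction r using Polynomial.induction_on' with
      | add a b ha hb => simp only [eval₂_add, map_add, ha, hb]
      | monomial n c =>
        rw [eval₂_monomial, map_mul, map_pow, hmap.1]
        exact congrArg (· * _) (fnHom_const (AlgHom.id R L) _ c)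
    rw [algebraMap_ofPQ, algebraMap_ofPQ, map_add, map_mul, hev, hev, hmap.2, Affine.negY]
    simp only [eval₂_sub, eval₂_mul, eval₂_add, eval₂_C, eval₂_X, eval₂_neg]
    rw [← map_const_curve]
    simp only [Affine.map, map_a₁, map_a₃]
    ring
  · simp only [ofPQ, Affine.CoordinateRing.norm_smul_basis]
    ring
  · refine Eq.trans ?_ (Affine.CoordinateRing.coe_norm_smul_basis (W' := (W⁄L)) p q).symm
    simp only [ofPQ, Affine.CoordinateRing.smul, mul_one, map_sub, map_mul,
      map_neg, map_add]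
    ring

lemma vInf_negHom (f : FF W L) : vInf (W⁄L) (negHom W L f) = vInf (W⁄L) f := by
  obtain ⟨a, b, hb, rfl⟩ := IsFractionRing.div_surjective (A := (W⁄L).CoordinateRing) f
  have key : ∀ z, vInf (W⁄L) (negHom W L (algebraMap _ (FF W L) z)) =
      vInf (W⁄L) (algebraMap (W⁄L).CoordinateRing (FF W L) z) := fun z => by
    rcases eq_or_ne z 0 with rfl | hz
    · simp
    obtain ⟨h1, h2, -⟩ := conj_norm z
    have h0 : conjCR z ≠ 0 := fun e => norm_ne_zero' hz (by rw [← h2, e, norm_zero_CR])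
    rw [h1, vInf_algebraMap, vInf_algebraMap, wtVal_of_ne_zero hz, wtVal_of_ne_zero h0, wt, wt, h2]
  rw [map_div₀, map_div₀, map_div₀, key, key]

lemma ptVal_negHom (P : (W⁄L).Point) (f : FF W L) : ptVal P (negHom W L f) = ptVal (-P) f := by
  rw [ptVal_apply, negHom_tau, vInf_negHom, ptVal_apply]

lemma vInf_coeffHom (σ : L →ₐ[R] L) (f : FF W L) :
    vInf (W⁄L) (coeffHom σ f) = vInf (W⁄L) f := by
  obtain ⟨a, b, hb, rfl⟩ := IsFractionRing.div_surjective (A := (W⁄L).CoordinateRing) f
  have key : ∀ z, vInf (W⁄L) (coeffHom σ (algebraMap _ (FF W L) z)) =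
      vInf (W⁄L) (algebraMap (W⁄L).CoordinateRing (FF W L) z) := fun z => by
    obtain ⟨p, q, rfl⟩ := exists_ofPQ z
    have hmap : Affine.Point.map (coeffHom (W := W) σ) (genPt W L) = genPt W L :=
      map_fnHom_genPt _ _
    rw [genPt, Affine.Point.map_some, Affine.Point.some.injEq] at hmap
    have hev : ∀ r : L[X], coeffHom σ (r.eval₂ (algebraMap L (FF W L)) (xGen W L)) =
        (r.map σ.toRingHom).eval₂ (algebraMap L (FF W L)) (xGen W L) := fun r => by
      induction r using Polynomial.induction_on' with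
      | add a b ha hb => simp only [eval₂_add, map_add, Polynomial.map_add, ha, hb]
      | monomial n c =>
        rw [eval₂_monomial, Polynomial.map_monomial, eval₂_monomial, map_mul, map_pow,
          hmap.1, coeffHom_const]
        rfl
    have himg : coeffHom σ (algebraMap (W⁄L).CoordinateRing (FF W L) (ofPQ p q)) =
        algebraMap (W⁄L).CoordinateRing (FF W L) (ofPQ (p.map σ.toRingHom) (q.map σ.toRingHom)) := by
      rw [algebraMap_ofPQ, algebraMap_ofPQ, map_add, map_mul, hev, hev, hmap.2]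
    rw [himg]
    rcases eq_or_ne (ofPQ (W := (W⁄L)) p q) 0 with h0 | h0
    · obtain ⟨rfl, rfl⟩ := ofPQ_eq_zero.mp h0
      simp
    have h1 : ofPQ (W := (W⁄L)) (p.map σ.toRingHom) (q.map σ.toRingHom) ≠ 0 := fun e => h0 (by
      rw [ofPQ_eq_zero] at e ⊢
      exact ⟨(Polynomial.map_eq_zero σ.toRingHom).mp e.1,
        (Polynomial.map_eq_zero σ.toRingHom).mp e.2⟩)
    rw [vInf_algebraMap, vInf_algebraMap, wtVal_of_ne_zero h1, wtVal_of_ne_zero h0]
    congr 2
    refine eq_of_forall_ge_iff fun n => ?_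
    rw [wt_le_iff, wt_le_iff]
    simp only [coeff_map, map_eq_zero]
  rw [map_div₀, map_div₀, map_div₀, key, key]

lemma ptVal_coeffHom (σ : L →ₐ[R] L) (P : (W⁄L).Point) (f : FF W L) :
    ptVal (Affine.Point.map σ P) (coeffHom σ f) = ptVal P f := by
  rw [ptVal_apply, ← coeffHom_tau, vInf_coeffHom, ptVal_apply]

end FermatLib.EC.Weil
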