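import Fermat.Agent.EC.Weil.Weight
import Mathlib.FieldTheory.IsAlgClosed.Basic

/-!
# Endomorphisms of the function field attached to points

For an elliptic curve `W/R` and an algebraically closed `R`-field `L`, every nonconstant point `Q`
of `W` over the function field `L(W)` and every `R`-endomorphism `σ` of `L` give the
endomorphism `fnHom σ Q` of `L(W)` sending the generic point to `Q`. Translations, the negation
and the Galois action are special cases.
-/

open Polynomial WeierstrassCurve
open scoped Polynomial.Bivariate WeierstrassCurve.Affine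

namespace FermatLib.EC.Weil

noncomputable scoped instance (priority := 100) instDecEqFF {A : Type*} [CommRing A] [IsDomain A] :
    DecidableEq (FractionRing A) := Classical.decEq _

variable {R L : Type*} [CommRing R] [Field L] [Algebra R L]

/-- The function field `L(W)`. -/
abbrev FF (W : Affine R) (L : Type*) [Field L] [Algebra R L] : Type _ := (W⁄L).FunctionField

variable {W : Affine R}

/-- The generic `X`-coordinate. -/
noncomputable def xGen (W : Affine R) (L : Type*) [Field L] [Algebra R L] : FF W L :=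
  algebraMap (W⁄L).CoordinateRing (FF W L) (Affine.CoordinateRing.mk (W⁄L) (C X))

/-- The generic `Y`-coordinate. -/
noncomputable def yGen (W : Affine R) (L : Type*) [Field L] [Algebra R L] : FF W L :=
  algebraMap (W⁄L).CoordinateRing (FF W L) (Affine.CoordinateRing.mk (W⁄L) Y)

lemma map_const_curve : (W⁄L).map (algebraMap L (FF W L)) = W⁄(FF W L) :=
  W.map_baseChange (IsScalarTower.toAlgHom R L (FF W L))

lemma const_injective : Function.Injective (algebraMap L (FF W L)) :=
  RingHom.injective _

lemma algebraMap_mk_C (p : L[X]) :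
    algebraMap (W⁄L).CoordinateRing (FF W L) (Affine.CoordinateRing.mk (W⁄L) (C p)) =
      p.eval₂ (algebraMap L (FF W L)) (xGen W L) := by
  induction p using Polynomial.induction_on' with
  | add p q hp hq => simp only [map_add, eval₂_add, hp, hq]
  | monomial n a =>
    rw [eval₂_monomial, ← C_mul_X_pow_eq_monomial, C_mul, map_mul, map_mul, C_pow, map_pow,
      map_pow, xGen, IsScalarTower.algebraMap_apply L (W⁄L).CoordinateRing (FF W L)]
    rfl

lemma equation_gen : (W⁄(FF W L)).Equation (xGen W L) (yGen W L) := by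
  rw [← map_const_curve, Affine.Equation, Affine.map_polynomial]
  have h : ∀ P : L[X][Y], (P.map (mapRingHom (algebraMap L (FF W L)))).evalEval (xGen W L)
      (yGen W L) = algebraMap (W⁄L).CoordinateRing (FF W L)
        (Affine.CoordinateRing.mk (W⁄L) P) := fun P => by
    induction P using Polynomial.induction_on' with
    | add p q hp hq => simp only [Polynomial.map_add, evalEval_add, map_add, hp, hq]
    | monomial n a =>
      rw [Polynomial.map_monomial, ← C_mul_X_pow_eq_monomial, ← C_mul_X_pow_eq_monomial,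
        evalEval_mul, evalEval_pow, evalEval_C, evalEval_X, coe_mapRingHom, eval_map,
        map_mul, map_mul, map_pow, map_pow, algebraMap_mk_C, yGen]
  rw [h, Affine.CoordinateRing.mk, AdjoinRoot.mk_self, map_zero]

variable [(W⁄L).IsElliptic]

lemma isElliptic_FF : (W⁄(FF W L)).IsElliptic := by
  rw [← map_const_curve]; infer_instance

lemma nonsingular_gen : (W⁄(FF W L)).Nonsingular (xGen W L) (yGen W L) :=
  letI := isElliptic_FF (W := W) (L := L)
  (W⁄(FF W L)).equation_iff_nonsingular.mp equation_gen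

/-- The generic point. -/
noncomputable def genPt (W : Affine R) (L : Type*) [Field L] [Algebra R L] [(W⁄L).IsElliptic] :
    (W⁄(FF W L)).Point :=
  .some _ _ nonsingular_gen

variable [DecidableEq L]

/-- A constant point. -/
noncomputable abbrev cst : (W⁄L).Point →+ (W⁄(FF W L)).Point :=
  Affine.Point.baseChange L (FF W L)

variable [IsAlgClosed L]

/-- A point outside the constants has transcendental `X`-coordinate. -/
lemma x_ne_const {x y : FF W L} {h : (W⁄(FF W L)).Nonsingular x y}
    (hQ : ∀ P, cst P ≠ (.some x y h : (W⁄(FF W L)).Point)) (c : L) :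
    x ≠ algebraMap L (FF W L) c := by
  intro hx
  obtain ⟨r, hr⟩ := IsAlgClosed.exists_root ((W⁄L).polynomial.map (evalRingHom c)) (by
    rw [degree_eq_natDegree (Polynomial.Monic.map _ Affine.monic_polynomial).ne_zero,
      Affine.monic_polynomial.natDegree_map, Affine.natDegree_polynomial]; simp)
  have heq : (W⁄L).Equation c r := by
    rw [Affine.Equation, ← map_evalRingHom_eval]; exact hr
  have hns := (W⁄L).equation_iff_nonsingular.mp heq
  have h1 : cst (Affine.Point.some c r hns) = Affine.Point.some _ _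
      ((W.baseChange_nonsingular (IsScalarTower.toAlgHom R L (FF W L)).injective c r).mpr hns) :=
    rfl
  rcases (Affine.Point.X_eq_iff (h₁ := h) (h₂ := (W.baseChange_nonsingular
    (IsScalarTower.toAlgHom R L (FF W L)).injective c r).mpr hns)).mp hx with e | e
  · exact hQ _ (h1.trans e.symm)
  · exact hQ (-Affine.Point.some c r hns) (by rw [map_neg, h1]; exact e.symm)

omit [(W⁄L).IsElliptic] [DecidableEq L] in
lemma eval₂_ne_zero {x : FF W L} (hx : ∀ c : L, x ≠ algebraMap L (FF W L) c) (σ : L →+* L)
    {p : L[X]} (hp : p ≠ 0) : p.eval₂ ((algebraMap L (FF W L)).comp σ) x ≠ 0 := by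
  rw [(IsAlgClosed.splits p).eq_prod_roots, eval₂_mul, eval₂_C, eval₂_multiset_prod,
    Multiset.map_map]
  refine mul_ne_zero ((map_ne_zero_iff _ (RingHom.injective _)).mpr (leadingCoeff_ne_zero.mpr hp))
    (Multiset.prod_ne_zero ?_)
  simp only [Multiset.mem_map, Function.comp_apply, not_exists, not_and]
  intro a _ h
  rw [eval₂_sub, eval₂_X, eval₂_C, sub_eq_zero] at h
  exact hx _ h

lemma exists_fnHom (σ : L →ₐ[R] L) {Q : (W⁄(FF W L)).Point} (hQ : ∀ P, cst P ≠ Q) :
    ∃ φ : FF W L →ₐ[R] FF W L, (∀ c, φ (algebraMap L (FF W L) c) = algebraMap L (FF W L) (σ c)) ∧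
      Affine.Point.map φ (genPt W L) = Q := by
  rcases Q with _ | ⟨x, y, h⟩
  · exact absurd (map_zero _) (hQ 0)
  have htr := x_ne_const hQ
  let j : L →ₐ[R] FF W L := (IsScalarTower.toAlgHom R L (FF W L)).comp σ
  have heq : (W⁄L).polynomial.eval₂ (eval₂RingHom j.toRingHom x) y = 0 := by
    rw [eval₂_eval₂RingHom_apply, ← Affine.map_polynomial]
    erw [W.map_baseChange j]
    exact h.1
  let f : (W⁄L).CoordinateRing →+* FF W L :=
    AdjoinRoot.lift (eval₂RingHom j.toRingHom x) y heq
  have fC : ∀ p : L[X], f (algebraMap L[X] _ p) = p.eval₂ j.toRingHom x := fun p => by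
    rw [AdjoinRoot.algebraMap_eq]; exact AdjoinRoot.lift_of heq
  have hf : Function.Injective f := (injective_iff_map_eq_zero f).mpr fun z hz => by
    by_contra hz0
    obtain ⟨p, q, rfl⟩ := exists_ofPQ z
    apply eval₂_ne_zero htr σ.toRingHom (norm_ne_zero' hz0)
    refine (fC _).symm.trans ?_
    have hnorm := Affine.CoordinateRing.coe_norm_smul_basis (W' := (W⁄L)) p q
    have hpq : Affine.CoordinateRing.mk (W⁄L) (C p + C q * Y) = ofPQ p q := by
      simp [ofPQ, Affine.CoordinateRing.smul]
    calc f (algebraMap L[X] _ (Algebra.norm L[X] (ofPQ (W := (W⁄L)) p q)))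
        = f (Affine.CoordinateRing.mk (W⁄L) ((C p + C q * Y) *
            (C p + C q * (-(Y : L[X][Y]) - C (C (W⁄L).a₁ * X + C (W⁄L).a₃))))) := by
          rw [← hnorm]; rfl
      _ = 0 := by rw [map_mul, map_mul, hpq, hz, zero_mul]
  let φ : FF W L →+* FF W L := IsFractionRing.lift (A := (W⁄L).CoordinateRing) hf
  have hφ : ∀ z, φ (algebraMap _ _ z) = f z := fun z => IsFractionRing.lift_algebraMap hf z
  have hc : ∀ c, φ (algebraMap L (FF W L) c) = algebraMap L (FF W L) (σ c) := fun c => by
    rw [IsScalarTower.algebraMap_apply L (W⁄L).CoordinateRing (FF W L), hφ,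
      IsScalarTower.algebraMap_apply L L[X] (W⁄L).CoordinateRing, fC, algebraMap_eq, eval₂_C]
    exact (IsScalarTower.algebraMap_apply L (W⁄L).CoordinateRing (FF W L) (σ c))
  refine ⟨⟨φ, fun r => ?_⟩, hc, ?_⟩
  · rw [IsScalarTower.algebraMap_apply R L (FF W L)]
    exact (hc _).trans (congrArg _ (σ.commutes r))
  · rw [genPt, Affine.Point.map_some, Affine.Point.some.injEq]
    constructor
    · change φ (xGen W L) = x
      rw [xGen, hφ]
      exact (AdjoinRoot.lift_of heq).trans (eval₂_X _ _)
    · change φ (yGen W L) = y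
      rw [yGen, hφ]
      exact AdjoinRoot.lift_root heq

/-- The endomorphism of `L(W)` restricting to `σ` on `L` and mapping the generic point to `Q`. -/
noncomputable def fnHom (σ : L →ₐ[R] L) {Q : (W⁄(FF W L)).Point} (hQ : ∀ P, cst P ≠ Q) :
    FF W L →ₐ[R] FF W L :=
  (exists_fnHom σ hQ).choose

lemma fnHom_const (σ : L →ₐ[R] L) {Q : (W⁄(FF W L)).Point} (hQ : ∀ P, cst P ≠ Q) (c : L) :
    fnHom σ hQ (algebraMap L (FF W L) c) = algebraMap L (FF W L) (σ c) :=
  (exists_fnHom σ hQ).choose_spec.1 c

lemma map_fnHom_genPt (σ : L →ₐ[R] L) {Q : (W⁄(FF W L)).Point} (hQ : ∀ P, cst P ≠ Q) :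
    Affine.Point.map (fnHom σ hQ) (genPt W L) = Q :=
  (exists_fnHom σ hQ).choose_spec.2

omit [(W⁄L).IsElliptic] [IsAlgClosed L] in
lemma map_cst {φ : FF W L →ₐ[R] FF W L} {σ : L →ₐ[R] L}
    (hφ : ∀ c, φ (algebraMap L (FF W L) c) = algebraMap L (FF W L) (σ c)) (P : (W⁄L).Point) :
    Affine.Point.map φ (cst P) = cst (Affine.Point.map σ P) := by
  rcases P with _ | ⟨a, b, h⟩
  · rfl
  · simp only [cst, Affine.Point.baseChange, Affine.Point.map_some, Affine.Point.some.injEq]
    exact ⟨hφ a, hφ b⟩

omit [DecidableEq L] [IsAlgClosed L] in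
lemma algHom_ext_gen {φ ψ : FF W L →ₐ[R] FF W L}
    (hc : ∀ c, φ (algebraMap L (FF W L) c) = ψ (algebraMap L (FF W L) c))
    (hg : Affine.Point.map φ (genPt W L) = Affine.Point.map ψ (genPt W L)) : φ = ψ := by
  rw [genPt, Affine.Point.map_some, Affine.Point.map_some, Affine.Point.some.injEq] at hg
  have key : ∀ z : (W⁄L).CoordinateRing, φ (algebraMap _ _ z) = ψ (algebraMap _ _ z) := fun z => by
    obtain ⟨p, q, rfl⟩ := exists_ofPQ z
    have hp : ∀ p : L[X], φ (p.eval₂ (algebraMap L (FF W L)) (xGen W L)) =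
        ψ (p.eval₂ (algebraMap L (FF W L)) (xGen W L)) := fun p => by
      induction p using Polynomial.induction_on' with
      | add a b ha hb => simp only [eval₂_add, map_add, ha, hb]
      | monomial n a => simp only [eval₂_monomial, map_mul, map_pow, hc, hg.1]
    simp only [ofPQ, Affine.CoordinateRing.smul, map_add, map_mul, algebraMap_mk_C,
      mul_one, hp]
    exact congrArg₂ (· + ·) rfl (congrArg₂ (· * ·) rfl hg.2)
  apply AlgHom.ext
  intro z
  obtain ⟨a, b, _, rfl⟩ := IsFractionRing.div_surjective (A := (W⁄L).CoordinateRing) z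
  rw [map_div₀, map_div₀, key, key]

omit [IsAlgClosed L] in
lemma genPt_ne_cst (P : (W⁄L).Point) : cst P ≠ genPt W L := by
  rcases P with _ | ⟨a, b, h⟩
  · exact fun h => Affine.Point.some_ne_zero _ h.symm
  intro e
  simp only [genPt, cst, Affine.Point.baseChange, Affine.Point.map_some,
    Affine.Point.some.injEq] at e
  have e1 : algebraMap L (FF W L) a = xGen W L := e.1
  rw [IsScalarTower.algebraMap_apply L (W⁄L).CoordinateRing (FF W L), xGen] at e1
  have e2 := IsFractionRing.injective (W⁄L).CoordinateRing (FF W L) e1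
  have : ofPQ (W := (W⁄L)) (C a - X) 0 = 0 := by
    rw [ofPQ, zero_smul, add_zero, Affine.CoordinateRing.smul, mul_one, map_sub, map_sub, ← e2]
    exact sub_self _
  have h2 := congrArg (fun p : L[X] => p.coeff 1) (ofPQ_eq_zero.mp this).1
  simp at h2

omit [IsAlgClosed L] in
lemma gen_add_ne_cst (S P : (W⁄L).Point) : cst P ≠ genPt W L + cst S := fun h =>
  genPt_ne_cst (P - S) (by rw [map_sub, h]; exact add_sub_cancel_right _ _)

omit [IsAlgClosed L] in
lemma neg_gen_ne_cst (P : (W⁄L).Point) : cst P ≠ -genPt W L := fun h =>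
  genPt_ne_cst (-P) (by rw [map_neg, h, neg_neg])

/-- Translation by `S`. -/
noncomputable def tau (S : (W⁄L).Point) : FF W L →ₐ[R] FF W L :=
  fnHom (AlgHom.id R L) (gen_add_ne_cst S)

/-- The automorphism induced by negation. -/
noncomputable def negHom (W : Affine R) (L : Type*) [Field L] [Algebra R L] [(W⁄L).IsElliptic]
    [DecidableEq L] [IsAlgClosed L] : FF W L →ₐ[R] FF W L :=
  fnHom (AlgHom.id R L) (neg_gen_ne_cst (W := W) (L := L))

/-- The action of `σ` on coefficients. -/
noncomputable def coeffHom (σ : L →ₐ[R] L) : FF W L →ₐ[R] FF W L :=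
  fnHom σ genPt_ne_cst

lemma tau_const (S : (W⁄L).Point) (c : L) :
    tau S (algebraMap L (FF W L) c) = algebraMap L (FF W L) c :=
  fnHom_const _ _ c

lemma map_tau_gen (S : (W⁄L).Point) :
    Affine.Point.map (tau S) (genPt W L) = genPt W L + cst S :=
  map_fnHom_genPt _ _

lemma map_tau_cst (S P : (W⁄L).Point) : Affine.Point.map (tau S) (cst P) = cst P := by
  refine (map_cst (σ := AlgHom.id R L) (tau_const S) P).trans (congrArg cst ?_)
  cases P <;> rfl

lemma tau_zero : tau (0 : (W⁄L).Point) = AlgHom.id R (FF W L) :=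
  algHom_ext_gen (fun c => by rw [tau_const, AlgHom.id_apply]) (by
    rw [map_tau_gen, map_zero, add_zero]; rfl)

lemma tau_tau (S T : (W⁄L).Point) (f : FF W L) : tau S (tau T f) = tau (S + T) f := by
  rw [← AlgHom.comp_apply]
  refine congrFun (congrArg DFunLike.coe (algHom_ext_gen (fun c => ?_) ?_)) f
  · rw [AlgHom.comp_apply, tau_const, tau_const, tau_const]
  · rw [← Affine.Point.map_map, map_tau_gen, map_add, map_tau_gen, map_tau_cst, map_tau_gen,
      map_add, add_assoc]

lemma tau_zero_apply (f : FF W L) : tau (0 : (W⁄L).Point) f = f := by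
  rw [tau_zero, AlgHom.id_apply]

lemma tau_injective (S : (W⁄L).Point) : Function.Injective (tau S) :=
  (tau S).toRingHom.injective

lemma negHom_tau (S : (W⁄L).Point) (f : FF W L) :
    tau S (negHom W L f) = negHom W L (tau (-S) f) := by
  rw [← AlgHom.comp_apply, ← AlgHom.comp_apply]
  refine congrFun (congrArg DFunLike.coe (algHom_ext_gen (fun c => ?_) ?_)) f
  · simp only [AlgHom.comp_apply, negHom, fnHom_const, tau_const, AlgHom.id_apply]
  · rw [← Affine.Point.map_map, ← Affine.Point.map_map, negHom, map_fnHom_genPt, map_neg,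
      map_tau_gen, map_tau_gen, map_add, map_fnHom_genPt,
      map_cst (σ := AlgHom.id R L) (fnHom_const _ _), map_neg]
    rw [neg_add]
    refine congrArg₂ (· + ·) rfl ?_
    rw [map_neg]
    cases S <;> rfl

lemma coeffHom_const (σ : L →ₐ[R] L) (c : L) :
    coeffHom (W := W) σ (algebraMap L (FF W L) c) = algebraMap L (FF W L) (σ c) :=
  fnHom_const _ _ c

lemma coeffHom_tau (σ : L →ₐ[R] L) (S : (W⁄L).Point) (f : FF W L) :
    coeffHom σ (tau S f) = tau (Affine.Point.map σ S) (coeffHom σ f) := by
  rw [← AlgHom.comp_apply, ← AlgHom.comp_apply]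
  refine congrFun (congrArg DFunLike.coe (algHom_ext_gen (fun c => ?_) ?_)) f
  · simp only [AlgHom.comp_apply, coeffHom_const, tau_const]
  · rw [← Affine.Point.map_map, ← Affine.Point.map_map, map_tau_gen, map_add, coeffHom,
      map_fnHom_genPt, map_tau_gen, map_cst (fnHom_const σ genPt_ne_cst)]

end FermatLib.EC.Weil
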