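import Mathlib.AlgebraicGeometry.EllipticCurve.Affine.Point
import Mathlib.RingTheory.Valuation.ExtendToLocalization
import Mathlib.GroupTheory.ArchimedeanDensely
import Mathlib.Tactic.LinearCombination

/-!
# The valuation at infinity on the function field of a Weierstrass curve

`vInf` is the valuation of `L(W)` at the point at infinity, normalised so that `X` has value
`exp 2` and `Y` has value `exp 3`.
-/

open Polynomial WithZero
open scoped Polynomial.Bivariate nonZeroDivisors

namespace FermatLib.EC.Weil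

open WeierstrassCurve

variable {L : Type*} [Field L] {W : Affine L}

/-- The weight of an element of the coordinate ring: degree of its norm. -/
noncomputable def wt (f : W.CoordinateRing) : ℕ :=
  (Algebra.norm L[X] f).natDegree

/-- `p + q Y` in the coordinate ring. -/
noncomputable def ofPQ (p q : L[X]) : W.CoordinateRing :=
  p • (1 : W.CoordinateRing) + q • Affine.CoordinateRing.mk W Y

lemma exists_ofPQ (f : W.CoordinateRing) : ∃ p q : L[X], ofPQ (W := W) p q = f :=
  Affine.CoordinateRing.exists_smul_basis_eq f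

lemma ofPQ_eq_zero {p q : L[X]} : ofPQ (W := W) p q = 0 ↔ p = 0 ∧ q = 0 :=
  ⟨Affine.CoordinateRing.smul_basis_eq_zero, by rintro ⟨rfl, rfl⟩; simp [ofPQ]⟩

lemma ofPQ_add (p q p' q' : L[X]) :
    ofPQ (W := W) (p + p') (q + q') = ofPQ p q + ofPQ p' q' := by
  simp only [ofPQ, add_smul]; abel

lemma ofPQ_sub (p q p' q' : L[X]) :
    ofPQ (W := W) (p - p') (q - q') = ofPQ p q - ofPQ p' q' := by
  simp only [ofPQ, sub_smul]; abel

lemma ofPQ_smul (r p q : L[X]) :
    ofPQ (W := W) (r * p) (r * q) = r • ofPQ p q := by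
  simp only [ofPQ, smul_add, mul_smul]

lemma degree_norm_ofPQ (p q : L[X]) :
    (Algebra.norm L[X] (ofPQ (W := W) p q)).degree = max (2 • p.degree) (2 • q.degree + 3) :=
  Affine.CoordinateRing.degree_norm_smul_basis p q

lemma norm_ne_zero' {f : W.CoordinateRing} (hf : f ≠ 0) : Algebra.norm L[X] f ≠ 0 := by
  obtain ⟨p, q, rfl⟩ := exists_ofPQ f
  intro h
  have hd := degree_norm_ofPQ (W := W) p q
  rw [h, degree_zero] at hd
  apply hf
  rw [ofPQ_eq_zero]
  constructor
  · by_contra hp
    have := (le_max_left (2 • p.degree) (2 • q.degree + 3)).trans_eq hd.symm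
    rw [degree_eq_natDegree hp, two_nsmul, ← Nat.cast_add, le_bot_iff] at this
    exact WithBot.natCast_ne_bot _ this
  · by_contra hq
    have := (le_max_right (2 • p.degree) (2 • q.degree + 3)).trans_eq hd.symm
    rw [degree_eq_natDegree hq, two_nsmul, ← Nat.cast_add, show (3 : WithBot ℕ) = ((3 : ℕ) : WithBot ℕ)
      from rfl, ← Nat.cast_add, le_bot_iff] at this
    exact WithBot.natCast_ne_bot _ this

lemma wt_mul {f g : W.CoordinateRing} (hf : f ≠ 0) (hg : g ≠ 0) : wt (f * g) = wt f + wt g := by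
  rw [wt, map_mul, natDegree_mul (norm_ne_zero' hf) (norm_ne_zero' hg), wt, wt]

lemma wt_le_iff {p q : L[X]} {n : ℕ} :
    wt (ofPQ (W := W) p q) ≤ n ↔
      (∀ i, n < 2 * i → p.coeff i = 0) ∧ (∀ i, n < 2 * i + 3 → q.coeff i = 0) := by
  rw [wt, natDegree_le_iff_degree_le, degree_norm_ofPQ, max_le_iff]
  refine and_congr ?_ ?_
  · rcases eq_or_ne p 0 with rfl | hp
    · simp
    rw [degree_eq_natDegree hp, two_nsmul, ← WithBot.coe_natCast, ← WithBot.coe_natCast,
      ← WithBot.coe_add, WithBot.coe_le_coe]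
    simp only [Nat.cast_id]
    refine ⟨fun h i hi => coeff_eq_zero_of_natDegree_lt (by omega), fun h => ?_⟩
    by_contra hlt
    exact leadingCoeff_ne_zero.mpr hp (h p.natDegree (by omega))
  · rcases eq_or_ne q 0 with rfl | hq
    · simp
    rw [degree_eq_natDegree hq, two_nsmul, ← WithBot.coe_natCast, ← WithBot.coe_natCast,
      ← WithBot.coe_add, show (3 : WithBot ℕ) = ((3 : ℕ) : WithBot ℕ) from rfl,
      ← WithBot.coe_natCast, ← WithBot.coe_add, WithBot.coe_le_coe]
    simp only [Nat.cast_id]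
    refine ⟨fun h i hi => coeff_eq_zero_of_natDegree_lt (by omega), fun h => ?_⟩
    by_contra hlt
    exact leadingCoeff_ne_zero.mpr hq (h q.natDegree (by omega))

lemma wt_add_le (f g : W.CoordinateRing) : wt (f + g) ≤ max (wt f) (wt g) := by
  obtain ⟨p, q, rfl⟩ := exists_ofPQ f
  obtain ⟨p', q', rfl⟩ := exists_ofPQ g
  rw [← ofPQ_add, wt_le_iff]
  obtain ⟨h1, h2⟩ := wt_le_iff.mp (le_max_left (wt (ofPQ (W := W) p q)) (wt (ofPQ (W := W) p' q')))
  obtain ⟨h3, h4⟩ := wt_le_iff.mp (le_max_right (wt (ofPQ (W := W) p q)) (wt (ofPQ (W := W) p' q')))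
  exact ⟨fun i hi => by rw [coeff_add, h1 i hi, h3 i hi, add_zero],
    fun i hi => by rw [coeff_add, h2 i hi, h4 i hi, add_zero]⟩

lemma wt_algebraMap_C (c : L) : wt (algebraMap L W.CoordinateRing c) = 0 := by
  have : algebraMap L W.CoordinateRing c = ofPQ (C c) 0 := by
    rw [ofPQ, zero_smul, add_zero, IsScalarTower.algebraMap_apply L L[X] W.CoordinateRing,
      Algebra.algebraMap_eq_smul_one]
    rfl
  rw [this]
  refine Nat.le_zero.mp (wt_le_iff.mpr ⟨fun i hi => ?_, by simp⟩)
  rw [coeff_C]; split_ifs with h <;> [omega; rfl]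

/-- Leading coefficient cancellation. -/
lemma exists_const_wt_lt {f g : W.CoordinateRing} (hg : g ≠ 0) (h : wt f ≤ wt g) :
    ∃ c : L, f - algebraMap L W.CoordinateRing c * g = 0 ∨
      wt (f - algebraMap L W.CoordinateRing c * g) < wt g := by
  obtain ⟨p, q, rfl⟩ := exists_ofPQ f
  obtain ⟨p', q', rfl⟩ := exists_ofPQ g
  set n := wt (ofPQ (W := W) p' q') with hn
  obtain ⟨hp, hq⟩ := wt_le_iff.mp h
  obtain ⟨hp', hq'⟩ := wt_le_iff.mp (le_of_eq hn.symm)
  have key : ∀ c : L, ofPQ (W := W) p q - algebraMap L W.CoordinateRing c * ofPQ p' q' =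
      ofPQ (p - C c * p') (q - C c * q') := fun c => by
    rw [ofPQ_sub, ofPQ_smul, ← Algebra.smul_def, ← algebraMap_smul L[X] c]; rfl
  by_cases h0 : n = 0
  · have e : ∀ r s : L[X], (∀ i, n < 2 * i → r.coeff i = 0) →
        (∀ i, n < 2 * i + 3 → s.coeff i = 0) → r = C (r.coeff 0) ∧ s = 0 := fun r s hr hs =>
      ⟨Polynomial.ext fun i => by
        rw [coeff_C]; split_ifs with hi <;> [rw [hi]; exact hr i (by omega)],
       Polynomial.ext fun i => by rw [coeff_zero]; exact hs i (by omega)⟩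
    obtain ⟨e1, e2⟩ := e p q hp hq
    obtain ⟨e3, e4⟩ := e p' q' hp' hq'
    have hne : p'.coeff 0 ≠ 0 := fun h' => hg <| ofPQ_eq_zero.mpr ⟨by rw [e3, h', C_0], e4⟩
    refine ⟨p.coeff 0 / p'.coeff 0, Or.inl ?_⟩
    rw [key, ofPQ_eq_zero, e2, e4, mul_zero, sub_zero]
    refine ⟨?_, rfl⟩
    calc p - C (p.coeff 0 / p'.coeff 0) * p'
        = C (p.coeff 0) - C (p.coeff 0 / p'.coeff 0) * C (p'.coeff 0) := by rw [← e1, ← e3]
      _ = 0 := by rw [← C_mul, div_mul_cancel₀ _ hne, sub_self]
  have lt : ∀ c : L, (∀ i, n - 1 < 2 * i → (p - C c * p').coeff i = 0) →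
      (∀ i, n - 1 < 2 * i + 3 → (q - C c * q').coeff i = 0) →
      wt (ofPQ (W := W) (p - C c * p') (q - C c * q')) < n := fun c h1 h2 => by
    have := wt_le_iff (W := W).mpr ⟨h1, h2⟩; omega
  rcases Nat.even_or_odd' n with ⟨m, hm | hm⟩
  · have hne : p'.coeff m ≠ 0 := by
      intro h'
      have : n ≤ n - 1 := wt_le_iff.mpr
        ⟨fun i hi => if e : i = m then e ▸ h' else hp' i (by omega),
          fun i hi => hq' i (by omega)⟩
      omega
    refine ⟨p.coeff m / p'.coeff m, Or.inr ?_⟩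
    rw [key]
    refine lt _ (fun i hi => ?_) (fun i hi => ?_)
    · rw [coeff_sub, coeff_C_mul]
      rcases eq_or_ne i m with rfl | e
      · rw [div_mul_cancel₀ _ hne, sub_self]
      · rw [hp i (by omega), hp' i (by omega), mul_zero, sub_zero]
    · rw [coeff_sub, coeff_C_mul, hq i (by omega), hq' i (by omega), mul_zero, sub_zero]
  · have hm1 : 1 ≤ m := by
      by_contra hm0
      have : n ≤ 0 := wt_le_iff.mpr ⟨fun i hi => hp' i (by omega), fun i hi => hq' i (by omega)⟩
      omega
    have hne : q'.coeff (m - 1) ≠ 0 := by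
      intro h'
      have : n ≤ n - 1 := wt_le_iff.mpr
        ⟨fun i hi => hp' i (by omega),
          fun i hi => if e : i = m - 1 then e ▸ h' else hq' i (by omega)⟩
      omega
    refine ⟨q.coeff (m - 1) / q'.coeff (m - 1), Or.inr ?_⟩
    rw [key]
    refine lt _ (fun i hi => ?_) (fun i hi => ?_)
    · rw [coeff_sub, coeff_C_mul, hp i (by omega), hp' i (by omega), mul_zero, sub_zero]
    · rw [coeff_sub, coeff_C_mul]
      rcases eq_or_ne i (m - 1) with rfl | e
      · rw [div_mul_cancel₀ _ hne, sub_self]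
      · rw [hq i (by omega), hq' i (by omega), mul_zero, sub_zero]

variable (W)

open Classical in
/-- The valuation at infinity of the coordinate ring. -/
noncomputable def wtVal : Valuation W.CoordinateRing ℤᵐ⁰ where
  toFun f := if f = 0 then 0 else exp (wt f : ℤ)
  map_zero' := if_pos rfl
  map_one' := by
    rw [if_neg one_ne_zero]
    simp [wt]
  map_mul' f g := by
    rcases eq_or_ne f 0 with rfl | hf
    · simp
    rcases eq_or_ne g 0 with rfl | hg
    · simp
    simp [hf, hg, mul_ne_zero hf hg, wt_mul hf hg, exp_add]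
  map_add_le_max' f g := by
    rcases eq_or_ne f 0 with rfl | hf
    · simp
    rcases eq_or_ne g 0 with rfl | hg
    · simp
    rcases eq_or_ne (f + g) 0 with h | h
    · simp [h]
    simp only [hf, hg, h, if_false, le_max_iff, exp_le_exp, Nat.cast_le]
    exact le_max_iff.mp (wt_add_le f g)

variable {W}

open Classical in
lemma wtVal_of_ne_zero {f : W.CoordinateRing} (hf : f ≠ 0) : wtVal W f = exp (wt f : ℤ) :=
  if_neg hf

lemma wtVal_supp : ∀ s : W.CoordinateRing⁰, wtVal W s ≠ 0 := fun s => by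
  rw [wtVal_of_ne_zero (nonZeroDivisors.coe_ne_zero s)]; exact exp_ne_zero

variable (W) in
/-- The valuation at infinity of the function field. -/
noncomputable def vInf : Valuation W.FunctionField ℤᵐ⁰ :=
  (wtVal W).extendToLocalization (S := W.CoordinateRing⁰)
    (fun s hs => wtVal_supp ⟨s, hs⟩) W.FunctionField

lemma vInf_algebraMap (f : W.CoordinateRing) :
    vInf W (algebraMap W.CoordinateRing W.FunctionField f) = wtVal W f :=
  Valuation.extendToLocalization_apply_map_apply _ _ _ _

lemma vInf_const {c : L} (hc : c ≠ 0) : vInf W (algebraMap L W.FunctionField c) = 1 := by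
  rw [IsScalarTower.algebraMap_apply L W.CoordinateRing W.FunctionField, vInf_algebraMap,
    wtVal_of_ne_zero ((map_ne_zero_iff _ (FaithfulSMul.algebraMap_injective _ _)).mpr hc),
    wt_algebraMap_C]
  simp

/-- The residue field at infinity is `L`. -/
lemma exists_const_vInf_lt {z : W.FunctionField} (hz : vInf W z ≤ 1) :
    ∃ c : L, vInf W (z - algebraMap L W.FunctionField c) < 1 := by
  obtain ⟨a, b, hb, rfl⟩ := IsFractionRing.div_surjective (A := W.CoordinateRing) z
  have hb0 : b ≠ 0 := nonZeroDivisors.ne_zero hb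
  have hbv : (0 : ℤᵐ⁰) < vInf W (algebraMap _ W.FunctionField b) := by
    rw [vInf_algebraMap, wtVal_of_ne_zero hb0]; exact exp_pos
  rw [map_div₀, div_le_one₀ hbv] at hz
  have hle : a = 0 ∨ wt a ≤ wt b := by
    rcases eq_or_ne a 0 with ha | ha
    · exact Or.inl ha
    right
    rw [vInf_algebraMap, vInf_algebraMap, wtVal_of_ne_zero ha, wtVal_of_ne_zero hb0,
      exp_le_exp, Nat.cast_le] at hz
    exact hz
  rcases hle with rfl | hle
  · exact ⟨0, by simp⟩
  obtain ⟨c, hc⟩ := exists_const_wt_lt hb0 hle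
  refine ⟨c, ?_⟩
  have hbne : algebraMap W.CoordinateRing W.FunctionField b ≠ 0 :=
    (map_ne_zero_iff _ (IsFractionRing.injective _ _)).mpr hb0
  rw [IsScalarTower.algebraMap_apply L W.CoordinateRing W.FunctionField, div_sub' hbne,
    mul_comm (algebraMap W.CoordinateRing W.FunctionField b), ← map_mul, ← map_sub, map_div₀,
    div_lt_one₀ hbv, vInf_algebraMap, vInf_algebraMap, wtVal_of_ne_zero hb0]
  rcases eq_or_ne (a - algebraMap L W.CoordinateRing c * b) 0 with h0 | h0
  · rw [h0, map_zero]; exact exp_pos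
  · rw [wtVal_of_ne_zero h0, exp_lt_exp, Nat.cast_lt]
    exact hc.resolve_left h0

end FermatLib.EC.Weil
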